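import Fermat.Agent.LT.Setup
import Fermat.Agent.GalRep.Construct.Cyclotomic

set_option autoImplicit false

/-!
# Facts about the quaternion subgroup and about Frobenius elements of a setup
-/

noncomputable section

open Matrix

namespace FermatAgent.LT

local notation "Qb" => AlgebraicClosure ℚ
local notation "GQ" => AlgebraicClosure ℚ ≃ₐ[ℚ] AlgebraicClosure ℚ
local notation "M₂" => Matrix (Fin 2) (Fin 2)

theorem mem_quaternionSubgroup {g : GL (Fin 2) (ZMod 3)} :
    g ∈ quaternionSubgroup ↔ IsQ8 (g : M₂ (ZMod 3)) := Iff.rfl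

theorem quaternionSubgroup_conj {g h : GL (Fin 2) (ZMod 3)} (hh : h ∈ quaternionSubgroup) :
    g * h * g⁻¹ ∈ quaternionSubgroup := by
  rw [mem_quaternionSubgroup] at hh ⊢
  refine ⟨by rw [Units.val_mul, Units.val_mul, Matrix.det_units_conj, hh.1], ?_⟩
  rcases hh.2 with h' | h' | h'
  · exact Or.inl (by rw [Units.val_mul, Units.val_mul, Matrix.trace_units_conj, h'])
  · exact Or.inr (Or.inl (by rw [Units.val_mul, Units.val_mul, h', mul_one, Units.mul_inv]))
  · exact Or.inr (Or.inr (by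
      rw [Units.val_mul, Units.val_mul, h', mul_neg, mul_one, neg_mul, Units.mul_inv]))

theorem q8Trace_cast {g : GL (Fin 2) (ZMod 3)} (hg : g ∈ quaternionSubgroup) :
    (q8Trace g : ZMod 3) = (g : M₂ (ZMod 3)).trace := by
  unfold q8Trace
  split_ifs with h1 h2
  · simp [h1]
  · simp [h2]
  · rcases (mem_quaternionSubgroup.mp hg).2 with h | h | h
    · simp [h]
    · exact absurd (Units.ext h) h1
    · exact absurd (Units.ext (h.trans (by simp))) h2

theorem pow_three_mem_quaternionSubgroup {g : GL (Fin 2) (ZMod 3)}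
    (hg : (g : M₂ (ZMod 3)).det = 1) : g ^ 3 ∈ quaternionSubgroup := by
  have hch := Matrix.aeval_self_charpoly (g : M₂ (ZMod 3))
  rw [Matrix.charpoly_fin_two, hg] at hch
  simp only [map_add, map_sub, map_mul, map_pow, Polynomial.aeval_X, Polynomial.aeval_C,
    map_one, Algebra.algebraMap_eq_smul_one, smul_mul_assoc, one_mul] at hch
  set t := (g : M₂ (ZMod 3)).trace with ht
  set A := (g : M₂ (ZMod 3)) with hA
  have h2 : A ^ 2 = t • A - 1 := by
    rw [← sub_eq_zero, ← hch]
    abel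
  have h3 : A ^ 3 = (t * t - 1) • A - t • 1 := by
    rw [pow_succ, h2, sub_mul, one_mul, smul_mul_assoc, ← pow_two, h2, smul_sub, smul_smul,
      sub_smul, one_smul]
    abel
  rw [mem_quaternionSubgroup, Units.val_pow_eq_pow_val]
  refine ⟨by rw [det_pow, hg, one_pow], ?_⟩
  rw [h3]
  rcases (by decide : ∀ x : ZMod 3, x = 0 ∨ x = 1 ∨ x = -1) t with h | h | h
  · refine Or.inl ?_
    rw [h]
    simp [← ht, h]
  · exact Or.inr (Or.inr (by simp [h]))
  · exact Or.inr (Or.inl (by simp [h]))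

/-- The image of the quaternion group spans the matrix algebra in odd characteristic. -/
theorem span_quaternion_eq_top {k : Type*} [Field k] [CharP k 3] :
    Submodule.span k ((fun g : GL (Fin 2) (ZMod 3) =>
      (g : M₂ (ZMod 3)).map (ZMod.castHom (dvd_refl 3) k)) '' quaternionSubgroup) = ⊤ := by
  refine eq_top_iff.mpr fun N _ => ?_
  have mk : ∀ X : M₂ (ZMod 3), IsQ8 X →
      X.map (ZMod.castHom (dvd_refl 3) k) ∈ Submodule.span k ((fun g : GL (Fin 2) (ZMod 3) =>
        (g : M₂ (ZMod 3)).map (ZMod.castHom (dvd_refl 3) k)) '' quaternionSubgroup) := fun X hX =>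
    Submodule.subset_span ⟨Matrix.nonsingInvUnit X (by rw [hX.1]; exact isUnit_one), hX, rfl⟩
  have h1 := mk 1 ⟨det_one, Or.inr (Or.inl rfl)⟩
  have hi := mk !![0, -1; 1, 0] ⟨by decide, Or.inl (by decide)⟩
  have hj := mk !![1, 1; 1, -1] ⟨by decide, Or.inl (by decide)⟩
  have hk := mk !![-1, 1; 1, 1] ⟨by decide, Or.inl (by decide)⟩
  have h3 : (3 : k) = 0 := by exact_mod_cast CharP.cast_eq_zero k 3
  have : N = (-(N 0 0 + N 1 1)) • (1 : M₂ (ZMod 3)).map (ZMod.castHom (dvd_refl 3) k) +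
      (N 0 1 - N 1 0) • (!![0, -1; 1, 0] : M₂ (ZMod 3)).map (ZMod.castHom (dvd_refl 3) k) +
      (N 0 1 + N 1 0 + N 0 0 - N 1 1) •
        (!![1, 1; 1, -1] : M₂ (ZMod 3)).map (ZMod.castHom (dvd_refl 3) k) +
      (N 0 1 + N 1 0 - N 0 0 + N 1 1) •
        (!![-1, 1; 1, 1] : M₂ (ZMod 3)).map (ZMod.castHom (dvd_refl 3) k) := by
    ext i j
    fin_cases i <;> fin_cases j <;> simp only [Fin.zero_eta, Fin.mk_one, Fin.isValue,
      Matrix.add_apply, Matrix.smul_apply, Matrix.map_apply, Matrix.one_apply_eq, Matrix.of_apply,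
      Matrix.cons_val', Matrix.cons_val_zero, Matrix.cons_val_one, Matrix.cons_val_fin_one,
      smul_eq_mul, map_neg, map_one, map_zero, ne_eq, one_ne_zero, zero_ne_one, not_false_eq_true,
      Matrix.one_apply_ne]
    · linear_combination (N 1 1) * h3
    · linear_combination -(N 1 0) * h3
    · linear_combination -(N 0 1) * h3
    · linear_combination (N 0 0) * h3
  rw [this]
  exact add_mem (add_mem (add_mem (Submodule.smul_mem _ _ h1) (Submodule.smul_mem _ _ hi))
    (Submodule.smul_mem _ _ hj)) (Submodule.smul_mem _ _ hk)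

namespace Setup

variable (S : Setup)

/-- The determinant of a Frobenius element. -/
theorem det_frobenius {p : ℕ} (hp : p.Prime) (hp3 : p ≠ 3) {A : ValuationSubring Qb}
    (hA : A.LiesOverPrime p) {τ : GQ} (hτ : A.IsFrobeniusAt τ p) :
    ((S.ρ τ : GL (Fin 2) (ZMod 3)) : M₂ (ZMod 3)).det = (p : ZMod 3) := by
  have : Fact (Nat.Prime 3) := ⟨Nat.prime_three⟩
  rw [show ((S.ρ τ : GL (Fin 2) (ZMod 3)) : M₂ (ZMod 3)).det =
    ((Matrix.GeneralLinearGroup.det (S.ρ τ) : (ZMod 3)ˣ) : ZMod 3) from rfl, S.det_eq,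
    WeierstrassCurve.modThreeCyclotomicChar_apply]
  symm
  refine modularCyclotomicCharacter.unique _ _ _ fun t ht => ?_
  have ht' : ((t : Qb)) ^ (3 ^ 1) = 1 := by
    rw [pow_one, ← Units.val_pow_eq_pow_val, (mem_rootsOfUnity _ _).mp ht, Units.val_one]
  have h := GalRep.cycChar_spec 3 τ 1 ht'
  rw [GalRep.cycChar_frobenius 3 hp hp3 hA hτ, map_natCast] at h
  simpa using h

end Setup

end FermatAgent.LT
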