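import Fermat.Agent.LT.Galois.Congruent
import Fermat.Agent.LT.Galois.Quaternion
import Fermat.Agent.GalRep.Construct.Main
import Fermat.Agent.TW.Places

set_option autoImplicit false

/-!
# Comparison of the representation of the eigenform with the given representation

Both have the same traces on the preimage of the quaternion group, so they differ by a character
of square one, which is trivial or the determinant.
-/

noncomputable section

open Matrix ModularFormClass CongruenceSubgroup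

namespace FermatAgent.LT

local notation "Qb" => AlgebraicClosure ℚ
local notation "GQ" => AlgebraicClosure ℚ ≃ₐ[ℚ] AlgebraicClosure ℚ
local notation "M₂" => Matrix (Fin 2) (Fin 2)
local notation "ℤbar" => integralClosure ℤ ℂ

theorem trace_det_of_charpoly {k : Type*} [Field k] {x : M₂ k} {a l : k}
    (h : x.charpoly = Polynomial.X ^ 2 - Polynomial.C a * Polynomial.X + Polynomial.C l) :
    x.trace = a ∧ x.det = l := by
  rw [Matrix.charpoly_fin_two] at h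
  refine ⟨?_, ?_⟩
  · simpa [Polynomial.coeff_X_pow, Polynomial.coeff_C] using congrArg (·.coeff 1) h
  · simpa [Polynomial.coeff_X_pow, Polynomial.coeff_C] using congrArg (·.coeff 0) h

theorem eq_smul_one_of_commute_all {k : Type*} [Field k] {D : M₂ k} (h : ∀ X, D * X = X * D) :
    ∃ c : k, D = c • 1 := by
  obtain ⟨c, hc⟩ := Matrix.mem_range_scalar_of_commute_single (M := D) fun i j _ => (h _).symm
  exact ⟨c, by rw [← hc, Matrix.scalar_apply, Matrix.smul_one_eq_diagonal]⟩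

/-- Two representations of a group whose restrictions to a normal subgroup have the same traces,
the first spanning all matrices there, differ by a scalar. -/
theorem exists_smul_of_trace_eq {G : Type*} [Group G] {k : Type*} [Field k] (H : Subgroup G)
    [H.Normal] (a b : G →* M₂ k) (ha : Submodule.span k (a '' (H : Set G)) = ⊤)
    (htr : ∀ h ∈ H, (a h).trace = (b h).trace) :
    ∃ P : (M₂ k)ˣ, (∀ h ∈ H, b h * (P : M₂ k) = (P : M₂ k) * a h) ∧
      ∀ g, ∃ s : k, b g * (P : M₂ k) = s • ((P : M₂ k) * a g) := by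
  obtain ⟨P₀, hP₀, hP⟩ := GalRep.exists_conj_of_trace_eq (a.comp H.subtype) (b.comp H.subtype)
    (by
      rw [show Set.range (a.comp H.subtype) = a '' (H : Set G) by
        rw [MonoidHom.coe_comp, Set.range_comp, Subgroup.coe_subtype, Subtype.range_coe]]
      exact ha) fun h => htr h.1 h.2
  obtain ⟨P, rfl⟩ := hP₀
  have hP' : ∀ h ∈ H, b h * (P : M₂ k) = (P : M₂ k) * a h := fun h hh => (hP ⟨h, hh⟩).symm
  refine ⟨P, hP', fun g => ?_⟩
  have key : ∀ x : M₂ k, ((a g⁻¹ * ((P⁻¹ : (M₂ k)ˣ) : M₂ k)) * (b g * (P : M₂ k))) * x = x * ((a g⁻¹ * ((P⁻¹ : (M₂ k)ˣ) : M₂ k)) * (b g * (P : M₂ k))) := by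
    have hgen : ∀ h ∈ H, ((a g⁻¹ * ((P⁻¹ : (M₂ k)ˣ) : M₂ k)) * (b g * (P : M₂ k))) * a h =
        a h * ((a g⁻¹ * ((P⁻¹ : (M₂ k)ˣ) : M₂ k)) * (b g * (P : M₂ k))) := by
      intro h hh
      have hc : g * h * g⁻¹ ∈ H := ‹H.Normal›.conj_mem h hh g
      have e1 : b g * (P : M₂ k) * a h = b (g * h * g⁻¹) * (b g * (P : M₂ k)) := by
        rw [mul_assoc, ← hP' h hh, ← mul_assoc, ← map_mul, ← mul_assoc, ← map_mul,
          inv_mul_cancel_right]
      have e2 : b (g * h * g⁻¹) = (P : M₂ k) * a (g * h * g⁻¹) * ((P⁻¹ : (M₂ k)ˣ) : M₂ k) := by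
        rw [← hP' _ hc, Units.mul_inv_cancel_right]
      rw [mul_assoc, e1, e2, map_mul, map_mul]
      calc a g⁻¹ * ((P⁻¹ : (M₂ k)ˣ) : M₂ k) * ((P : M₂ k) * (a g * a h * a g⁻¹) * ((P⁻¹ : (M₂ k)ˣ) : M₂ k) * (b g * (P : M₂ k)))
          = a g⁻¹ * (((P⁻¹ : (M₂ k)ˣ) : M₂ k) * (P : M₂ k)) * (a g * a h * a g⁻¹) * ((P⁻¹ : (M₂ k)ˣ) : M₂ k) * (b g * (P : M₂ k)) := by
            simp only [mul_assoc]
        _ = (a g⁻¹ * a g) * (a h * (a g⁻¹ * ((P⁻¹ : (M₂ k)ˣ) : M₂ k) * (b g * (P : M₂ k)))) := by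
            rw [Units.inv_mul, mul_one]; simp only [mul_assoc]
        _ = _ := by rw [← map_mul, inv_mul_cancel, map_one, one_mul]
    intro x
    have hx : x ∈ Submodule.span k (a '' (H : Set G)) := ha ▸ Submodule.mem_top
    induction hx using Submodule.span_induction with
    | mem y hy => obtain ⟨h, hh, rfl⟩ := hy; exact hgen h hh
    | zero => rw [mul_zero, zero_mul]
    | add y z _ _ hy hz => rw [mul_add, add_mul, hy, hz]
    | smul c y _ hy => rw [mul_smul_comm, smul_mul_assoc, hy]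
  obtain ⟨s, hs⟩ := eq_smul_one_of_commute_all key
  refine ⟨s, ?_⟩
  calc b g * (P : M₂ k) = ((P : M₂ k) * (a g * a g⁻¹) * ((P⁻¹ : (M₂ k)ˣ) : M₂ k)) * (b g * (P : M₂ k)) := by
        rw [← map_mul, mul_inv_cancel, map_one, mul_one, Units.mul_inv, one_mul]
    _ = ((P : M₂ k) * a g) * ((a g⁻¹ * ((P⁻¹ : (M₂ k)ˣ) : M₂ k)) * (b g * (P : M₂ k))) := by simp only [mul_assoc]
    _ = _ := by rw [hs, mul_smul_comm, mul_one]

namespace WeightOneSource

variable {S : Setup} (W : WeightOneSource S)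

theorem splitsInF_of_frobenius {p : ℕ} (hp : p.Prime) (hpM : ¬ p ∣ W.M) (hp3 : p ≠ 3)
    {A : ValuationSubring Qb} (hA : A.LiesOverPrime p) {τ : GQ} (hτ : A.IsFrobeniusAt τ p)
    (h : S.ρ τ ∈ quaternionSubgroup) : S.SplitsInF p := by
  intro B hB σ hσ
  have hur : ∀ C : ValuationSubring Qb, C.LiesOverPrime p →
      ∀ i ∈ C.inertiaSubgroupIn ℚ, S.ρ i = 1 := fun C hC =>
    S.unramified p hp (fun hd => (hp.dvd_mul.mp hd).elim
      (fun h3 => hp3 ((Nat.prime_dvd_prime_iff_eq hp Nat.prime_three).mp h3))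
      fun hm => hpM (hm.trans W.m_dvd)) C hC
  obtain ⟨g, hg⟩ := TW.exists_conj_map_frobenius S.ρ hp hur hA hB hτ hσ
  rw [hg]
  exact quaternionSubgroup_conj h

/-- Eigenvalues congruent at the split primes determine the others up to a twist. -/
theorem exists_twist_of_congruent {g : CuspForm (Gamma0 W.M) 2} (hg : g.IsNormalizedEigenform)
    {k : Type} [Field k] [CharP k 3] (φ : ℤbar →+* k)
    (hcong : ∀ p σ, W.Good p σ → (p : ZMod 3) = 1 →
      ∃ a : ℤbar, (a : ℂ) = qCoeff ⇑g p ∧ φ a = (q8Trace (S.ρ σ) : k)) :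
    ∃ e : ℕ, ∀ ℓ : ℕ, ℓ.Prime → ℓ ≠ 3 → ¬ ℓ ∣ W.M →
      ∀ A : ValuationSubring Qb, A.LiesOverPrime ℓ → ∀ σ, A.IsFrobeniusAt σ ℓ →
        ∃ a : ℤbar, (a : ℂ) = qCoeff ⇑g ℓ ∧ φ a = φ ((ℓ : ℤbar) ^ e *
          (((Matrix.trace ((S.ρ σ : GL (Fin 2) (ZMod 3)) : M₂ (ZMod 3))).val : ℕ) : ℤbar)) := by
  classical
  set ψ : ZMod 3 →+* k := ZMod.castHom (dvd_refl 3) k with hψ
  have hval : ∀ x : ZMod 3, ψ x = φ ((x.val : ℕ) : ℤbar) := fun x => by
    rw [map_natCast, ← map_natCast ψ, ZMod.natCast_zmod_val]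
  obtain ⟨ρg, hatt, -⟩ := GalRep.exists_residualGaloisRep_isAttachedTo' hg Nat.prime_three φ
  set b := Module.finBasisOfFinrankEq k ρg.V ρg.finrank_eq
  set B : GQ →* M₂ k := GalRep.matrixHom b ρg.ρ with hB
  set A : GQ →* M₂ k :=
    ψ.mapMatrix.toMonoidHom.comp ((Units.coeHom (M₂ (ZMod 3))).comp S.ρ) with hAdef
  have hA : ∀ σ, A σ = ((S.ρ σ : GL (Fin 2) (ZMod 3)) : M₂ (ZMod 3)).map ψ := fun σ => rfl
  have hAtr : ∀ σ, (A σ).trace = ψ ((S.ρ σ : GL (Fin 2) (ZMod 3)) : M₂ (ZMod 3)).trace := fun σ => by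
    rw [hA, Matrix.trace_fin_two, Matrix.trace_fin_two, map_add]; rfl
  have hAdet : ∀ σ, (A σ).det = ψ ((S.ρ σ : GL (Fin 2) (ZMod 3)) : M₂ (ZMod 3)).det := fun σ => by
    rw [hA, RingHom.map_det]; rfl
  -- the values at Frobenius elements
  have hfrob : ∀ (ℓ : ℕ), ℓ.Prime → ℓ ≠ 3 → ¬ ℓ ∣ W.M → ∀ (V : ValuationSubring Qb),
      V.LiesOverPrime ℓ → ∀ σ : GQ, V.IsFrobeniusAt σ ℓ →
      ∃ a : ℤbar, (a : ℂ) = qCoeff ⇑g ℓ ∧ (B σ).trace = φ a ∧
        (B σ).det = (ℓ : k) ∧ (A σ).det = (ℓ : k) := by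
    intro ℓ hℓ hℓ3 hℓM V hV σ hσ
    obtain ⟨a, ha, hcp⟩ := hatt ℓ hℓ hℓM (fun h0 => hℓ3 ((Nat.prime_dvd_prime_iff_eq
      Nat.prime_three hℓ).mp ((CharP.cast_eq_zero_iff _ 3 ℓ).mp h0)).symm) V hV σ hσ
    rw [← LinearMap.charpoly_toMatrix (ρg.ρ σ) b] at hcp
    obtain ⟨h1, h2⟩ := trace_det_of_charpoly (x := B σ) hcp
    exact ⟨a, ha, h1, h2, by rw [hAdet, S.det_frobenius hℓ hℓ3 hV hσ, map_natCast]⟩
  -- traces on the quaternion part
  obtain ⟨L₁, hL₁, h₁⟩ := ρg.factorsThroughFiniteLevel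
  obtain ⟨L₂, hL₂, h₂⟩ := S.finiteLevel
  have hfin : GaloisFactorsThroughFiniteLevel (B.prod S.ρ) :=
    ⟨L₁ ⊔ L₂, IntermediateField.finiteDimensional_sup L₁ L₂, fun σ hσ => Prod.ext
      (by
        rw [MonoidHom.prod_apply, hB, GalRep.matrixHom_apply,
          h₁ σ fun x hx => hσ x (le_sup_left (b := L₂) hx), map_one]
        rfl)
      (h₂ σ fun x hx => hσ x (le_sup_right (a := L₁) hx))⟩
  set T : Set ℕ := ↑(W.exc ∪ (3 * W.M).divisors) with hT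
  have hTfin : T.Finite := Finset.finite_toSet _
  have hnotT : ∀ p, p.Prime → p ∉ T → p ∉ W.exc ∧ p ≠ 3 ∧ ¬ p ∣ W.M := fun p hp h => by
    simp only [hT, Finset.coe_union, Set.mem_union, Finset.mem_coe, Nat.mem_divisors,
      not_or, not_and, not_not] at h
    have h0 : 3 * W.M ≠ 0 := mul_ne_zero three_ne_zero W.M_pos.ne'
    exact ⟨h.1, fun e => h0 (h.2 (e ▸ dvd_mul_right 3 W.M)),
      fun e => h0 (h.2 (e.mul_left 3))⟩
  set H : Subgroup GQ := quaternionSubgroup.comap S.ρ with hH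
  have : H.Normal := ⟨fun h hh x => by
    simp only [hH, Subgroup.mem_comap, map_mul, map_inv] at hh ⊢
    exact quaternionSubgroup_conj hh⟩
  have htr : ∀ σ ∈ H, (A σ).trace = (B σ).trace := by
    intro σ hσ
    obtain ⟨p, hp, hpT, V, hV, τ, hτ, m, j, hm, hk⟩ :=
      GalRep.exists_isFrobeniusAt_map_pow_eq (B.prod S.ρ) hfin σ hTfin
    obtain ⟨hexc, hp3, hpM⟩ := hnotT p hp hpT
    have hρτ : S.ρ τ ∈ quaternionSubgroup := by
      rw [← show S.ρ (σ ^ j) = S.ρ τ from congrArg Prod.snd hk, map_pow]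
      exact pow_mem (show S.ρ σ ∈ quaternionSubgroup from hσ) j
    have hρm : S.ρ (τ ^ m) = S.ρ σ := congrArg Prod.snd hm
    have hAm : A σ = A τ ^ m := by rw [← map_pow, hA, hA, hρm]
    have hBm : B σ = B τ ^ m := by
      rw [← map_pow]
      exact (congrArg Prod.fst hm).symm
    have hp1 : (p : ZMod 3) = 1 := by rw [← S.det_frobenius hp hp3 hV hτ]; exact hρτ.1
    obtain ⟨a, ha, htrB, hdetB, hdetA⟩ := hfrob p hp hp3 hpM V hV τ hτ
    obtain ⟨a', ha', hmem⟩ := hcong p τ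
      ⟨hp, hexc, hpM, W.splitsInF_of_frobenius hp hpM hp3 hV hτ hρτ, V, hV, hτ⟩ hp1
    obtain rfl : a = a' := Subtype.ext (ha.trans ha'.symm)
    have htr' : (A τ).trace = (B τ).trace := by
      rw [hAtr, htrB, ← q8Trace_cast hρτ, map_intCast, hmem]
    rw [hAm, hBm, GalRep.trace_pow_eq_powTrace, GalRep.trace_pow_eq_powTrace, htr', hdetA, hdetB]
  have hspan : Submodule.span k (A '' (H : Set GQ)) = ⊤ := by
    rw [← span_quaternion_eq_top (k := k)]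
    refine congrArg _ (Set.ext fun x => ⟨?_, ?_⟩)
    · rintro ⟨σ, hσ, rfl⟩
      exact ⟨S.ρ σ, hσ, rfl⟩
    · rintro ⟨q, hq, rfl⟩
      obtain ⟨σ, rfl⟩ := S.surjective q
      exact ⟨σ, hq, rfl⟩
  obtain ⟨P, hPH, hex⟩ := exists_smul_of_trace_eq H A B hspan htr
  choose s hs using hex
  -- the character
  have hdet_eq : ∀ σ, (B σ).det = (A σ).det := fun σ => by
    have hf : ∀ f : GQ →* M₂ k, (∀ σ, (B.prod S.ρ) σ = 1 → f σ = 1) →
        GaloisFactorsThroughFiniteLevel (Matrix.detMonoidHom.comp f) := fun f hf => by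
      obtain ⟨L, hL, hL1⟩ := hfin
      exact ⟨L, hL, fun τ hτ => by rw [MonoidHom.comp_apply, hf τ (hL1 τ hτ), map_one]⟩
    exact DFunLike.congr_fun (GalRep.monoidHom_ext_of_frobenius (Matrix.detMonoidHom.comp B)
      (Matrix.detMonoidHom.comp A) (hf B fun τ h => congrArg Prod.fst h)
      (hf A fun τ h => by
        rw [hA, show S.ρ τ = 1 from congrArg Prod.snd h, Units.val_one,
          Matrix.map_one ψ (map_zero ψ) (map_one ψ)])
      hTfin fun p hp hpT V hV τ hτ => by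
        obtain ⟨-, hp3, hpM⟩ := hnotT p hp hpT
        obtain ⟨a, -, -, hdB, hdA⟩ := hfrob p hp hp3 hpM V hV τ hτ
        exact hdB.trans hdA.symm) σ
  have hPdet : (P : M₂ k).det ≠ 0 :=
    ((Matrix.isUnit_iff_isUnit_det _).mp P.isUnit).ne_zero
  have hAdet0 : ∀ σ, (A σ).det ≠ 0 := fun σ => by
    rw [hAdet]
    exact (map_ne_zero ψ).mpr ((Matrix.isUnit_iff_isUnit_det _).mp (S.ρ σ).isUnit).ne_zero
  have hsq : ∀ σ, s σ * s σ = 1 := fun σ => by
    have h := congrArg Matrix.det (hs σ)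
    rw [det_mul, det_smul, det_mul, hdet_eq, Fintype.card_fin] at h
    refine mul_right_cancel₀ (mul_ne_zero hPdet (hAdet0 σ)) ?_
    linear_combination -h
  have huniq : ∀ σ c, B σ * P = c • ((P : M₂ k) * A σ) → c = s σ := fun σ c hc => by
    have h := congrArg Matrix.det ((show (c - s σ) • ((P : M₂ k) * A σ) = 0 by
      rw [sub_smul, ← hc, ← hs, sub_self]))
    rw [det_smul, det_mul, Fintype.card_fin, Matrix.det_zero, mul_eq_zero] at h
    exact sub_eq_zero.mp (pow_eq_zero_iff two_ne_zero |>.mp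
      (h.resolve_right (mul_ne_zero hPdet (hAdet0 σ))))
  have hmul : ∀ σ τ, s (σ * τ) = s σ * s τ := fun σ τ => by
    refine (huniq (σ * τ) _ ?_).symm
    rw [map_mul, mul_assoc, hs τ, mul_smul_comm, ← mul_assoc, hs σ, smul_mul_assoc, smul_smul,
      mul_assoc, ← map_mul, mul_comm (s τ)]
  have hone : ∀ σ ∈ H, s σ = 1 := fun σ hσ =>
    (huniq σ 1 (by rw [one_smul, hPH σ hσ])).symm
  have hdet1 : ∀ σ, ((S.ρ σ : GL (Fin 2) (ZMod 3)) : M₂ (ZMod 3)).det = 1 → s σ = 1 := fun σ h => by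
    have h3 : s (σ ^ 3) = 1 := hone _ (by
      simpa [hH, map_pow] using pow_three_mem_quaternionSubgroup h)
    rw [pow_three, hmul, hmul, hsq, mul_one] at h3
    exact h3
  have htrace : ∀ σ, (B σ).trace = s σ * (A σ).trace := fun σ => by
    have e : B σ = s σ • ((P : M₂ k) * A σ * ((P⁻¹ : (M₂ k)ˣ) : M₂ k)) := by
      rw [← smul_mul_assoc, ← hs, mul_assoc, Units.mul_inv, mul_one]
    rw [e, Matrix.trace_smul, Matrix.trace_units_conj, smul_eq_mul]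
  obtain ⟨e, he⟩ : ∃ e : ℕ, ∀ σ,
      s σ = ψ ((S.ρ σ : GL (Fin 2) (ZMod 3)) : M₂ (ZMod 3)).det ^ e := by
    by_cases hall : ∀ σ, s σ = 1
    · exact ⟨0, fun σ => by rw [hall, pow_zero]⟩
    push Not at hall
    obtain ⟨σ₀, hσ₀⟩ := hall
    have hcases : ∀ σ, ((S.ρ σ : GL (Fin 2) (ZMod 3)) : M₂ (ZMod 3)).det = 1 ∨
        ((S.ρ σ : GL (Fin 2) (ZMod 3)) : M₂ (ZMod 3)).det = -1 := fun σ =>
      (by decide : ∀ x : ZMod 3, x ≠ 0 → x = 1 ∨ x = -1) _
        ((Matrix.isUnit_iff_isUnit_det _).mp (S.ρ σ).isUnit).ne_zero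
    refine ⟨1, fun σ => ?_⟩
    rw [pow_one]
    rcases hcases σ with h | h
    · rw [hdet1 σ h, h, map_one]
    · have h0 := (hcases σ₀).resolve_left fun h' => hσ₀ (hdet1 σ₀ h')
      have h1 := hdet1 (σ * σ₀) (by rw [map_mul, Units.val_mul, det_mul, h, h0]; norm_num)
      rw [hmul] at h1
      have hs0 : s σ₀ = -1 := (mul_self_eq_one_iff.mp (hsq σ₀)).resolve_left hσ₀
      rw [h, map_neg, map_one]
      rw [hs0] at h1
      linear_combination -h1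
  refine ⟨e, fun ℓ hℓ hℓ3 hℓM V hV σ hσ => ?_⟩
  obtain ⟨a, ha, htrB, -, -⟩ := hfrob ℓ hℓ hℓ3 hℓM V hV σ hσ
  refine ⟨a, ha, ?_⟩
  rw [← htrB, htrace, he, hAtr, S.det_frobenius hℓ hℓ3 hV hσ, map_natCast, map_mul, map_pow,
    map_natCast φ ℓ, ← hval]

/-- The eigenform, with its eigenvalues modulo `3` up to a twist. -/
theorem exists_eigenform_trace :
    ∃ (g : CuspForm (Gamma0 W.M) 2) (𝔪 : Ideal ℤbar), g.IsNormalizedEigenform ∧ 𝔪.IsMaximal ∧
      (3 : ℤbar) ∈ 𝔪 ∧ ∃ e : ℕ, ∀ ℓ : ℕ, ℓ.Prime → ℓ ≠ 3 → ¬ ℓ ∣ W.M →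
        ∀ A : ValuationSubring Qb, A.LiesOverPrime ℓ → ∀ σ, A.IsFrobeniusAt σ ℓ →
          ∃ a : ℤbar, (a : ℂ) = qCoeff ⇑g ℓ ∧
            a - (ℓ : ℤbar) ^ e *
              (((Matrix.trace ((S.ρ σ : GL (Fin 2) (ZMod 3)) : M₂ (ZMod 3))).val : ℕ) : ℤbar) ∈ 𝔪 := by
  obtain ⟨g, 𝔪, hg, hmax, h3, hcong⟩ := W.exists_congruent_eigenform
  let _ : Field (ℤbar ⧸ 𝔪) := Ideal.Quotient.field 𝔪
  have : CharP (ℤbar ⧸ 𝔪) 3 := by
    rw [CharP.charP_iff_prime_eq_zero Nat.prime_three, ← map_natCast (Ideal.Quotient.mk 𝔪),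
      Ideal.Quotient.eq_zero_iff_mem]
    exact h3
  obtain ⟨e, he⟩ := W.exists_twist_of_congruent hg (Ideal.Quotient.mk 𝔪) fun p σ h hp => by
    obtain ⟨a, ha, hm⟩ := hcong p σ h hp
    exact ⟨a, ha, by rw [Ideal.Quotient.eq.mpr hm, map_intCast]⟩
  refine ⟨g, 𝔪, hg, hmax, by exact_mod_cast h3, e, fun ℓ hℓ hℓ3 hℓM A hA σ hσ => ?_⟩
  obtain ⟨a, ha, hm⟩ := he ℓ hℓ hℓ3 hℓM A hA σ hσ
  exact ⟨a, ha, Ideal.Quotient.eq.mp hm⟩

end WeightOneSource

end FermatAgent.LT
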