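import Fermat.Agent.LT.Galois.WeightTwo
import Fermat.Agent.DSLift.Congruence
import Fermat.Agent.Descent3.Lift
import Fermat.Agent.ModCurve.Forms.IntegralForms

set_option autoImplicit false

/-!
# A weight two eigenform congruent to the weight one eigenvalue system

An integral form `u` of weight two such that `u θ⁻¹` satisfies the relations of the weight one
form exists by descent of linear algebra to `ℤ`; modulo `3` it is an eigenform of `T_p` for the
split primes `p`, and the lifting argument of Deligne and Serre applies.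
-/

noncomputable section

open UpperHalfPlane CongruenceSubgroup ModularFormClass

namespace FermatAgent.LT

local notation "Qb" => AlgebraicClosure ℚ
local notation "GQ" => AlgebraicClosure ℚ ≃ₐ[ℚ] AlgebraicClosure ℚ

/-- The inverse of the hexagonal theta series. -/
def hexSeriesInv : PowerSeries ℤ := PowerSeries.invOfUnit hexSeries 1

theorem hexSeries_mul_inv : hexSeries * hexSeriesInv = 1 :=
  PowerSeries.mul_invOfUnit hexSeries 1 (by rw [constantCoeff_hexSeries, Units.val_one])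

theorem hexSeriesInv_map_zmod : hexSeriesInv.map (Int.castRingHom (ZMod 3)) = 1 := by
  have := congrArg (PowerSeries.map (Int.castRingHom (ZMod 3))) hexSeries_mul_inv
  rwa [map_mul, hexSeries_map_zmod, one_mul, map_one] at this

/-- The coefficients of `u θ⁻¹`. -/
def quotCoeff (N n : ℕ) : CuspForm (Gamma0 N) 2 →ₗ[ℂ] ℂ :=
  ∑ x ∈ Finset.HasAntidiagonal.antidiagonal n,
    ((hexSeriesInv.coeff x.2 : ℤ) : ℂ) • DSLift.qCoeffLin N 2 x.1

theorem quotCoeff_apply (N n : ℕ) (u : CuspForm (Gamma0 N) 2) :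
    quotCoeff N n u = (qExpansion 1 ⇑u * hexSeriesInv.map (Int.castRingHom ℂ)).coeff n := by
  rw [PowerSeries.coeff_mul, quotCoeff, LinearMap.sum_apply]
  refine Finset.sum_congr rfl fun x _ => ?_
  rw [LinearMap.smul_apply, DSLift.qCoeffLin_apply, PowerSeries.coeff_map, smul_eq_mul, mul_comm]
  rfl

theorem quotCoeff_intCast {N : ℕ} {u : CuspForm (Gamma0 N) 2} {af : ℕ → ℤ}
    (haf : ∀ n, (af n : ℂ) = qCoeff ⇑u n) (n : ℕ) :
    quotCoeff N n u = ((PowerSeries.mk af * hexSeriesInv).coeff n : ℤ) := by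
  rw [quotCoeff, LinearMap.sum_apply, PowerSeries.coeff_mul, Int.cast_sum]
  refine Finset.sum_congr rfl fun x _ => ?_
  rw [LinearMap.smul_apply, DSLift.qCoeffLin_apply, ← haf, PowerSeries.coeff_mk, smul_eq_mul,
    Int.cast_mul, mul_comm]

namespace WeightOneSource

variable {S : Setup} (W : WeightOneSource S)

/-- A Frobenius element at a prime to which the eigenvalue condition applies. -/
def Good (p : ℕ) (σ : GQ) : Prop :=
  p.Prime ∧ p ∉ W.exc ∧ ¬ p ∣ W.M ∧ S.SplitsInF p ∧
    ∃ A : ValuationSubring Qb, A.LiesOverPrime p ∧ A.IsFrobeniusAt σ p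

/-- The relations satisfied by the weight one form, on weight two forms. -/
def relation (p : ℕ) (σ : GQ) (n : ℕ) : CuspForm (Gamma0 W.M) 2 →ₗ[ℂ] ℂ :=
  quotCoeff W.M (p * n) + (if p ∣ n then quotCoeff W.M (n / p) else 0) -
    (q8Trace (S.ρ σ) : ℂ) • quotCoeff W.M n

theorem relation_apply (p : ℕ) (σ : GQ) (n : ℕ) (u : CuspForm (Gamma0 W.M) 2) :
    W.relation p σ n u = quotCoeff W.M (p * n) u +
      (if p ∣ n then quotCoeff W.M (n / p) u else 0) -
        (q8Trace (S.ρ σ) : ℂ) * quotCoeff W.M n u := by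
  unfold relation
  split_ifs <;> simp

theorem quotCoeff_weightTwoForm (n : ℕ) : quotCoeff W.M n W.weightTwoForm = qCoeff ⇑W.f n := by
  rw [quotCoeff_apply, W.qExpansion_weightTwoForm, mul_assoc, ← map_mul, hexSeries_mul_inv,
    map_one, mul_one]
  rfl

theorem relation_weightTwoForm {p : ℕ} {σ : GQ} (h : W.Good p σ) (n : ℕ) :
    W.relation p σ n W.weightTwoForm = 0 := by
  obtain ⟨hp, hexc, hpM, hs, A, hA, hσ⟩ := h
  rw [relation_apply, W.quotCoeff_weightTwoForm, W.quotCoeff_weightTwoForm,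
    W.quotCoeff_weightTwoForm, W.hecke p hp hexc hpM hs A hA σ hσ n, sub_self]

theorem weightTwoForm_ne_zero : W.weightTwoForm ≠ 0 := by
  intro h
  refine W.f_ne_zero (DFunLike.coe_injective (funext fun τ => ?_))
  have hcoeff : qExpansion 1 ⇑W.f = 0 := PowerSeries.ext fun n => by
    have := W.quotCoeff_weightTwoForm n
    rw [h, map_zero] at this
    rw [map_zero]
    exact this.symm
  have : NeZero W.M := ⟨W.M_pos.ne'⟩
  exact congrFun ((UpperHalfPlane.qExpansion_eq_zero_iff one_pos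
    (SlashInvariantFormClass.periodic_comp_ofComplex W.f
      (by simp [CongruenceSubgroup.strictPeriods_Gamma1]))
    (CuspFormClass.holo W.f) (ModularFormClass.bdd_at_infty W.f)).mp hcoeff) τ

theorem exists_integral_solution :
    ∃ u ∈ CuspForm.intLattice W.M 2, u ≠ 0 ∧
      ∀ p σ, W.Good p σ → ∀ n, W.relation p σ n u = 0 := by
  have : NeZero W.M := ⟨W.M_pos.ne'⟩
  have hspan := ModCurve.Forms.hasIntegralStructure_two W.M
  have : Module.Finite ℤ (CuspForm.intLattice W.M 2) := .of_fg (CuspForm.intLattice_fg W.M 2)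
  have : IsAddTorsionFree (CuspForm.intLattice W.M 2) :=
    ⟨fun n hn a b hab => Subtype.ext <| by
      have h' : (n : ℂ) • a.1 = (n : ℂ) • b.1 := by
        rw [Nat.cast_smul_eq_nsmul, Nat.cast_smul_eq_nsmul]
        exact congrArg Subtype.val hab
      exact smul_right_injective _ (Nat.cast_ne_zero.mpr hn) h'⟩
  have : Module.Free ℤ (CuspForm.intLattice W.M 2) := Module.free_of_finite_type_torsion_free'
  let b := Module.Free.chooseBasis ℤ (CuspForm.intLattice W.M 2)
  obtain ⟨c, hc⟩ : ∃ c : Module.Free.ChooseBasisIndex ℤ (CuspForm.intLattice W.M 2) → ℂ,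
      ∑ i, c i • (b i).1 = W.weightTwoForm := by
    refine (Submodule.mem_span_range_iff_exists_fun ℂ).mp ?_
    refine Submodule.span_le.mpr (fun l hl => ?_) (hspan ▸ Submodule.mem_top :
      W.weightTwoForm ∈ Submodule.span ℂ (CuspForm.intLattice W.M 2 : Set _))
    have hl' := congrArg (CuspForm.intLattice W.M 2).subtype (b.sum_repr ⟨l, hl⟩)
    rw [map_sum] at hl'
    simp only [map_zsmul, Submodule.subtype_apply, ← Int.cast_smul_eq_zsmul ℂ] at hl'
    rw [SetLike.mem_coe, ← hl']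
    exact sum_mem fun i _ => Submodule.smul_mem _ _ (Submodule.subset_span ⟨i, rfl⟩)
  have hint : ∀ (i) (k : {x : ℕ × GQ // W.Good x.1 x.2} × ℕ),
      ∃ m : ℤ, W.relation k.1.1.1 k.1.1.2 k.2 (b i).1 = m := by
    intro i k
    choose af haf using DSLift.mem_intLattice_iff.mp (b i).2
    have hq := quotCoeff_intCast fun n => (haf n).symm
    rw [relation_apply, hq, hq, hq]
    split_ifs
    · refine ⟨(PowerSeries.mk af * hexSeriesInv).coeff (k.1.1.1 * k.2) +
        (PowerSeries.mk af * hexSeriesInv).coeff (k.2 / k.1.1.1) -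
        q8Trace (S.ρ k.1.1.2) * (PowerSeries.mk af * hexSeriesInv).coeff k.2, ?_⟩
      push_cast
      ring
    · refine ⟨(PowerSeries.mk af * hexSeriesInv).coeff (k.1.1.1 * k.2) -
        q8Trace (S.ρ k.1.1.2) * (PowerSeries.mk af * hexSeriesInv).coeff k.2, ?_⟩
      push_cast
      ring
  choose R hR using hint
  by_contra hcon
  push Not at hcon
  refine W.weightTwoForm_ne_zero ?_
  rw [← hc, DSLift.eq_zero_of_sum_intCast_mul_eq_zero R (fun d hd => ?_) c fun k => ?_]
  · simp
  · by_contra hd0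
    obtain ⟨p, σ, hg, n, hn⟩ := hcon (∑ i, d i • b i).1 (∑ i, d i • b i).2 fun h0 => hd0
      (funext (Fintype.linearIndependent_iff.mp b.linearIndependent d (Subtype.ext h0)))
    refine hn ?_
    have hz : ((∑ i, d i * R i (⟨(p, σ), hg⟩, n) : ℤ) : ℂ) = 0 := by
      rw [hd (⟨(p, σ), hg⟩, n), Int.cast_zero]
    rw [AddSubmonoidClass.coe_finsetSum, map_sum, ← hz, Int.cast_sum]
    refine Finset.sum_congr rfl fun i _ => ?_
    rw [Submodule.coe_smul, map_zsmul, hR i (⟨(p, σ), hg⟩, n), zsmul_eq_mul, Int.cast_mul]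
  · have := W.relation_weightTwoForm k.1.2 k.2
    rw [← hc, map_sum] at this
    rw [← this]
    exact Finset.sum_congr rfl fun i _ => by rw [map_smul, hR, smul_eq_mul]

theorem exists_primitive_solution :
    ∃ (u : CuspForm (Gamma0 W.M) 2) (af : ℕ → ℤ), (∀ n, (af n : ℂ) = qCoeff ⇑u n) ∧
      (∃ n, ¬ (3 : ℤ) ∣ af n) ∧ ∀ p σ, W.Good p σ → ∀ n, W.relation p σ n u = 0 := by
  have : NeZero W.M := ⟨W.M_pos.ne'⟩
  obtain ⟨u, hu, hu0, hrel⟩ := W.exists_integral_solution
  choose af haf using DSLift.mem_intLattice_iff.mp hu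
  obtain ⟨n₀, hn₀⟩ : ∃ n, af n ≠ 0 := by
    by_contra! h
    exact hu0 (DSLift.eq_zero_of_qCoeff_eq_zero fun n => by rw [haf, h, Int.cast_zero])
  clear hu0
  induction hk : (af n₀).natAbs using Nat.strong_induction_on generalizing u af with
  | _ k ih =>
  by_cases h : ∃ n, ¬ (3 : ℤ) ∣ af n
  · exact ⟨u, af, fun n => (haf n).symm, h, hrel⟩
  push Not at h
  choose bf hbf using h
  have hb : ∀ n, qCoeff ⇑((3 : ℂ)⁻¹ • u) n = bf n := fun n => by
    rw [DSLift.qCoeff_smul', haf, hbf]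
    push_cast
    ring
  refine ih (bf n₀).natAbs ?_ _ (DSLift.mem_intLattice_iff.mpr fun n => ⟨_, hb n⟩)
    (fun p σ hg n => by rw [map_smul, hrel p σ hg n, smul_zero]) bf hb ?_ rfl
  · rw [← hk, hbf n₀, Int.natAbs_mul, show (3 : ℤ).natAbs = 3 from rfl]
    have : bf n₀ ≠ 0 := fun h0 => hn₀ (by rw [hbf, h0, mul_zero])
    have := Int.natAbs_pos.mpr this
    omega
  · exact fun h0 => hn₀ (by rw [hbf, h0, mul_zero])

/-- A normalized eigenform of weight two with the eigenvalues of the weight one form modulo `3`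
at the split primes. -/
theorem exists_congruent_eigenform :
    ∃ (g : CuspForm (Gamma0 W.M) 2) (𝔪 : Ideal (integralClosure ℤ ℂ)),
      g.IsNormalizedEigenform ∧ 𝔪.IsMaximal ∧ ((3 : ℕ) : integralClosure ℤ ℂ) ∈ 𝔪 ∧
      ∀ p σ, W.Good p σ → (p : ZMod 3) = 1 →
        ∃ a : integralClosure ℤ ℂ, (a : ℂ) = qCoeff ⇑g p ∧
          a - (q8Trace (S.ρ σ) : integralClosure ℤ ℂ) ∈ 𝔪 := by
  have : NeZero W.M := ⟨W.M_pos.ne'⟩
  have hint := ModCurve.Forms.hasIntegralStructure_two W.M
  obtain ⟨u, af, haf, ⟨n₀, hn₀⟩, hrel⟩ := W.exists_primitive_solution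
  let I : Ideal (CuspForm.heckeAlgebra W.M 2 ∅) :=
    { carrier := {t | ∃ l ∈ CuspForm.intLattice W.M 2, t.1 u = (3 : ℤ) • l}
      add_mem' := by
        rintro t t' ⟨l, hl, h⟩ ⟨l', hl', h'⟩
        refine ⟨l + l', add_mem hl hl', ?_⟩
        change t.1 u + t'.1 u = _
        rw [h, h', smul_add]
      zero_mem' := ⟨0, zero_mem _, by simp⟩
      smul_mem' := by
        rintro t t' ⟨l, hl, h⟩
        refine ⟨t.1 l, CuspForm.mem_intLattice_of_mem_heckeAlgebra (by norm_num) t.2 hl, ?_⟩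
        change t.1 (t'.1 u) = _
        rw [h, map_zsmul] }
  have hI : I ≠ ⊤ := fun h => by
    obtain ⟨l, hl, h1⟩ := (Ideal.eq_top_iff_one I).mp h
    obtain ⟨m, hm⟩ := DSLift.mem_intLattice_iff.mp hl n₀
    have h2 : qCoeff ⇑u n₀ = qCoeff ⇑((3 : ℤ) • l) n₀ := congrArg (fun v : CuspForm (Gamma0 W.M) 2 => qCoeff ⇑v n₀) h1
    rw [← haf, ← DSLift.qCoeffLin_apply, map_zsmul, DSLift.qCoeffLin_apply, hm, zsmul_eq_mul] at h2
    exact hn₀ ⟨m, by exact_mod_cast h2⟩
  have hu : u ∈ CuspForm.intLattice W.M 2 :=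
    DSLift.mem_intLattice_iff.mpr fun n => ⟨_, (haf n).symm⟩
  have h3 : ((3 : ℕ) : CuspForm.heckeAlgebra W.M 2 ∅) ∈ I :=
    ⟨u, hu, by rw [show ((3 : ℤ) • u) = (3 : ℕ) • u by norm_cast]; rfl⟩
  obtain ⟨P, hP, hle⟩ := Ideal.exists_le_maximal I hI
  let _ : Field (CuspForm.heckeAlgebra W.M 2 ∅ ⧸ P) := Ideal.Quotient.field P
  have : CharP (CuspForm.heckeAlgebra W.M 2 ∅ ⧸ P) 3 := by
    rw [CharP.charP_iff_prime_eq_zero Nat.prime_three, ← map_natCast (Ideal.Quotient.mk P),
      Ideal.Quotient.eq_zero_iff_mem]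
    exact hle h3
  have := DSLift.heckeAlgebra_finite (by norm_num) hint (∅ : Set ℕ)
  have : Nontrivial (CuspForm.heckeAlgebra W.M 2 ∅) := (Ideal.Quotient.mk P).domain_nontrivial
  obtain ⟨χ, 𝔪, hmax, h3𝔪, hker⟩ := Descent3.exists_lift_of_character (Ideal.Quotient.mk P)
  obtain ⟨g, hg, hgT, -, -⟩ := DSLift.exists_normalizedEigenform_of_ringHom hint
    ((integralClosure ℤ ℂ).val.toRingHom.comp χ)
  refine ⟨g, 𝔪, hg, hmax, h3𝔪, fun p σ hgood hp1 => ?_⟩
  obtain ⟨hp, -, hpM, -, -⟩ := id hgood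
  refine ⟨χ (CuspForm.heckeAlgebra.T hp hpM (Set.notMem_empty p)), (hgT p hp hpM).symm, ?_⟩
  rw [← map_intCast χ, ← map_sub]
  refine hker _ (Ideal.Quotient.eq_zero_iff_mem.mpr (hle ?_))
  obtain ⟨l, hl, hTu⟩ := DSLift.hasModThreeEigenvalue_of_coeff (c := q8Trace (S.ρ σ))
    (t := CuspForm.heckeTLin 2 hp hpM) haf
    (fun n => af (n * p) + if p ∣ n then (p : ℤ) * af (n / p) else 0) (fun n => by
      rw [DSLift.qCoeff_heckeTLin hp hpM, ← haf]
      split_ifs
      · rw [← haf]; norm_num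
      · norm_num) (fun n => by
      set aa := fun m => (PowerSeries.mk af * hexSeriesInv).coeff m
      have hmod : ∀ m, ((aa m : ℤ) : ZMod 3) = (af m : ZMod 3) := fun m => by
        have e := congrArg (PowerSeries.coeff m)
          (show PowerSeries.map (Int.castRingHom (ZMod 3)) (PowerSeries.mk af * hexSeriesInv) =
            PowerSeries.map (Int.castRingHom (ZMod 3)) (PowerSeries.mk af) by
            rw [map_mul, hexSeriesInv_map_zmod, mul_one])
        simpa only [PowerSeries.coeff_map, eq_intCast, PowerSeries.coeff_mk] using e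
      have hr := hrel p σ hgood n
      rw [relation_apply, quotCoeff_intCast haf, quotCoeff_intCast haf,
        quotCoeff_intCast haf] at hr
      have hrZ : aa (p * n) + (if p ∣ n then aa (n / p) else 0) - q8Trace (S.ρ σ) * aa n = 0 := by
        apply Int.cast_injective (α := ℂ)
        push_cast
        exact hr
      refine (ZMod.intCast_zmod_eq_zero_iff_dvd _ 3).mp ?_
      have := congrArg (Int.cast : ℤ → ZMod 3) hrZ
      push_cast [hmod] at this ⊢
      rw [hp1, mul_comm n p]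
      simpa only [one_mul] using this)
  refine ⟨l, hl, ?_⟩
  change CuspForm.heckeTLin 2 hp hpM u -
    ((q8Trace (S.ρ σ) : Module.End ℂ (CuspForm (Gamma0 W.M) 2))) u = _
  rw [hTu, Module.End.intCast_apply, add_sub_cancel_left]

end WeightOneSource

end FermatAgent.LT
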