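import Mathlib

set_option autoImplicit false

/-!
# The theta series of the hexagonal lattice

`hexTheta z = ∑ q ^ (a² + a b + b²)` written with the two variable Jacobi theta function, its
behaviour under `z ↦ -1 / (3 z)` and its `q`-expansion.
-/

noncomputable section

open Complex
open scoped Real

namespace FermatAgent.LT

/-- The hexagonal theta series as a function on `ℂ`. -/
def hexThetaC (z : ℂ) : ℂ :=
  jacobiTheta₂ 0 (2 * z) * jacobiTheta₂ 0 (6 * z) +
    cexp (2 * π * I * z) * jacobiTheta₂ z (2 * z) * jacobiTheta₂ (3 * z) (6 * z)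

/-- The integers as even and odd numbers. -/
def intParity : ℤ ⊕ ℤ ≃ ℤ where
  toFun := Sum.elim (fun m => 2 * m) fun m => 2 * m + 1
  invFun n := if n % 2 = 0 then Sum.inl (n / 2) else Sum.inr (n / 2)
  left_inv x := by
    rcases x with m | m
    · simp
    · show (if (2 * m + 1) % 2 = 0 then _ else _) = _
      rw [if_neg (by omega)]
      exact congrArg Sum.inr (show (2 * m + 1) / 2 = m by omega)
  right_inv n := by
    by_cases h : n % 2 = 0 <;> simp [h] <;> omega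

theorem hasSum_jacobi_even (τ : ℂ) (hτ : 0 < im τ) (z : ℂ) :
    HasSum (fun m : ℤ => jacobiTheta₂_term (2 * m) z τ) (jacobiTheta₂ (2 * z) (4 * τ)) := by
  refine (hasSum_jacobiTheta₂_term (2 * z) (τ := 4 * τ) (by simpa using hτ)).congr_fun fun m => ?_
  simp only [jacobiTheta₂_term]
  push_cast
  congr 1
  ring

theorem hasSum_jacobi_odd (τ : ℂ) (hτ : 0 < im τ) (z : ℂ) :
    HasSum (fun m : ℤ => jacobiTheta₂_term (2 * m + 1) z τ)
      (cexp (2 * π * I * z + π * I * τ) * jacobiTheta₂ (2 * z + 2 * τ) (4 * τ)) := by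
  refine ((hasSum_jacobiTheta₂_term (2 * z + 2 * τ) (τ := 4 * τ)
    (by simpa using hτ)).mul_left (cexp (2 * π * I * z + π * I * τ))).congr_fun fun m => ?_
  simp only [jacobiTheta₂_term, ← Complex.exp_add]
  push_cast
  congr 1
  ring

theorem ofReal_mul_cpow {r : ℝ} (hr : 0 < r) {x : ℂ} (hx : x ≠ 0) (s : ℂ) :
    ((r : ℂ) * x) ^ s = (r : ℂ) ^ s * x ^ s := by
  have hr' : (r : ℂ) ≠ 0 := by exact_mod_cast hr.ne'
  rw [cpow_def_of_ne_zero (mul_ne_zero hr' hx), cpow_def_of_ne_zero hr', cpow_def_of_ne_zero hx,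
    log_ofReal_mul hr hx, ← ofReal_log hr.le, add_mul, Complex.exp_add]

/-- Splitting `jacobiTheta₂` according to the parity of the summation index. -/
theorem jacobiTheta₂_parity (τ : ℂ) (hτ : 0 < im τ) (z : ℂ) :
    jacobiTheta₂ z τ = jacobiTheta₂ (2 * z) (4 * τ) +
      cexp (2 * π * I * z + π * I * τ) * jacobiTheta₂ (2 * z + 2 * τ) (4 * τ) :=
  (intParity.hasSum_iff.mpr (hasSum_jacobiTheta₂_term z hτ)).unique
    ((hasSum_jacobi_even τ hτ z).sum (hasSum_jacobi_odd τ hτ z))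

theorem jacobiTheta₂_half (τ : ℂ) (hτ : 0 < im τ) :
    jacobiTheta₂ (1 / 2) τ = jacobiTheta₂ 0 (4 * τ) -
      cexp (π * I * τ) * jacobiTheta₂ (2 * τ) (4 * τ) := by
  rw [jacobiTheta₂_parity τ hτ, show (2 : ℂ) * (1 / 2) + 2 * τ = 2 * τ + 1 by ring,
    jacobiTheta₂_add_left, show (2 : ℂ) * (1 / 2) = 0 + 1 by norm_num, jacobiTheta₂_add_left,
    show 2 * (π : ℂ) * I * (1 / 2) = π * I by ring, Complex.exp_add, exp_pi_mul_I]
  ring

/-- The behaviour under the Fricke involution of level `3`. -/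
theorem hexThetaC_fricke {z : ℂ} (hz : 0 < im z) :
    hexThetaC (-1 / (3 * z)) = -I * Real.sqrt 3 * z * hexThetaC z := by
  have hz0 : z ≠ 0 := fun h => by simp [h] at hz
  set w := -1 / (3 * z) with hw
  have hw' : 0 < im w := by
    rw [hw, neg_div, neg_im, one_div, Complex.inv_im, neg_div, neg_neg]
    refine div_pos ?_ (Complex.normSq_pos.mpr (by simp [hz0]))
    simpa using hz
  set x := -I * z with hx
  have hxre : 0 < x.re := by simpa [hx] using hz
  have hx0 : x ≠ 0 := fun h => by simp [h] at hxre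
  have hcpow : ((2 : ℝ) * x : ℂ) ^ (1 / 2 : ℂ) * ((6 : ℝ) * x : ℂ) ^ (1 / 2 : ℂ) =
      2 * Real.sqrt 3 * x := by
    rw [ofReal_mul_cpow (by norm_num) hx0, ofReal_mul_cpow (by norm_num) hx0]
    have h12 : ((2 : ℝ) : ℂ) ^ (1 / 2 : ℂ) * ((6 : ℝ) : ℂ) ^ (1 / 2 : ℂ) = 2 * Real.sqrt 3 := by
      rw [show (1 / 2 : ℂ) = ((1 / 2 : ℝ) : ℂ) by simp, ← ofReal_cpow (by norm_num),
        ← ofReal_cpow (by norm_num), ← Real.sqrt_eq_rpow, ← Real.sqrt_eq_rpow, ← ofReal_mul,
        ← Real.sqrt_mul (by norm_num), show (2 : ℝ) * 6 = 2 ^ 2 * 3 by norm_num,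
        Real.sqrt_mul (by norm_num), Real.sqrt_sq (by norm_num)]
      simp
    have hxx : (x ^ (1 / 2 : ℂ)) * x ^ (1 / 2 : ℂ) = x := by
      rw [← cpow_add _ _ hx0, show (1 / 2 : ℂ) + 1 / 2 = 1 by norm_num, cpow_one]
    norm_num at h12 hxx ⊢
    linear_combination x * h12 +
      (2 : ℂ) ^ (1 / 2 : ℂ) * (6 : ℂ) ^ (1 / 2 : ℂ) * hxx
  set c := 1 / ((-I * (2 * z)) ^ (1 / 2 : ℂ) * (-I * (6 * z)) ^ (1 / 2 : ℂ)) with hc
  have hcval : c = 1 / (2 * Real.sqrt 3 * x) := by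
    rw [hc, ← hcpow, show -I * (2 * z) = ((2 : ℝ) : ℂ) * x by rw [hx]; push_cast; ring,
      show -I * (6 * z) = ((6 : ℝ) : ℂ) * x by rw [hx]; push_cast; ring]
  have e1 : jacobiTheta₂ 0 (2 * z) * jacobiTheta₂ 0 (6 * z) =
      c * (jacobiTheta₂ 0 (3 * w / 2) * jacobiTheta₂ 0 (w / 2)) := by
    rw [jacobiTheta₂_functional_equation 0 (2 * z), jacobiTheta₂_functional_equation 0 (6 * z),
      hc, show -1 / (2 * z) = 3 * w / 2 by rw [hw]; field_simp,
      show -1 / (6 * z) = w / 2 by rw [hw]; field_simp; ring]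
    simp only [zero_div, zero_pow two_ne_zero, mul_zero, Complex.exp_zero, mul_one]
    ring
  have e2 : cexp (2 * π * I * z) * jacobiTheta₂ z (2 * z) * jacobiTheta₂ (3 * z) (6 * z) =
      c * (jacobiTheta₂ (1 / 2) (3 * w / 2) * jacobiTheta₂ (1 / 2) (w / 2)) := by
    rw [jacobiTheta₂_functional_equation z (2 * z), jacobiTheta₂_functional_equation (3 * z) (6 * z),
      hc, show -1 / (2 * z) = 3 * w / 2 by rw [hw]; field_simp,
      show -1 / (6 * z) = w / 2 by rw [hw]; field_simp; ring,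
      show z / (2 * z) = 1 / 2 by field_simp, show 3 * z / (6 * z) = 1 / 2 by field_simp; ring]
    have hexp : cexp (2 * π * I * z) * cexp (-π * I * z ^ 2 / (2 * z)) *
        cexp (-π * I * (3 * z) ^ 2 / (6 * z)) = 1 := by
      rw [← Complex.exp_add, ← Complex.exp_add, ← Complex.exp_zero]
      congr 1
      field_simp
      ring
    linear_combination (1 / ((-I * (2 * z)) ^ (1 / 2 : ℂ) * (-I * (6 * z)) ^ (1 / 2 : ℂ))) *
      jacobiTheta₂ (1 / 2) (3 * w / 2) * jacobiTheta₂ (1 / 2) (w / 2) * hexp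
  have h32 : 0 < (3 * w / 2).im := by simpa using hw'
  have h12 : 0 < (w / 2).im := by simpa using hw'
  have key : hexThetaC z = 2 * c * hexThetaC w := by
    conv_lhs => rw [hexThetaC, e1, e2]
    rw [jacobiTheta₂_half _ h32, jacobiTheta₂_half _ h12, jacobiTheta₂_parity _ h32 0,
      jacobiTheta₂_parity _ h12 0, hexThetaC]
    have : cexp (π * I * (3 * w / 2)) * cexp (π * I * (w / 2)) = cexp (2 * π * I * w) := by
      rw [← Complex.exp_add]; congr 1; ring
    rw [show 2 * (π : ℂ) * I * 0 + π * I * (3 * w / 2) = π * I * (3 * w / 2) by ring,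
      show 2 * (π : ℂ) * I * 0 + π * I * (w / 2) = π * I * (w / 2) by ring,
      show 2 * (0 : ℂ) + 2 * (3 * w / 2) = 3 * w by ring, show 2 * (0 : ℂ) + 2 * (w / 2) = w by ring,
      show 2 * (3 * w / 2) = 3 * w by ring, show 2 * (w / 2) = w by ring,
      show 4 * (3 * w / 2) = 6 * w by ring, show 4 * (w / 2) = 2 * w by ring, mul_zero]
    linear_combination 2 * c * jacobiTheta₂ (3 * w) (6 * w) * jacobiTheta₂ w (2 * w) * this
  rw [key, hcval, hx]
  have h3 : (Real.sqrt 3 : ℂ) ≠ 0 := by simp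
  field_simp

/-! ### The `q`-expansion -/

/-- The quadratic form of the hexagonal lattice. -/
def hexNorm (v : ℤ × ℤ) : ℕ := (v.1 ^ 2 + v.1 * v.2 + v.2 ^ 2).toNat

theorem hexNorm_cast (v : ℤ × ℤ) : (hexNorm v : ℤ) = v.1 ^ 2 + v.1 * v.2 + v.2 ^ 2 :=
  Int.toNat_of_nonneg (by nlinarith [sq_nonneg (2 * v.1 + v.2), sq_nonneg v.2])

/-- The two cosets of the diagonal sublattice. -/
def hexEquiv : (ℤ × ℤ) ⊕ (ℤ × ℤ) ≃ ℤ × ℤ where
  toFun := Sum.elim (fun v => (v.1 - v.2, 2 * v.2)) fun v => (v.1 - v.2, 2 * v.2 + 1)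
  invFun u := if u.2 % 2 = 0 then Sum.inl (u.1 + u.2 / 2, u.2 / 2)
    else Sum.inr (u.1 + u.2 / 2, u.2 / 2)
  left_inv x := by
    rcases x with ⟨m, n⟩ | ⟨m, n⟩
    · simp
    · show (if (2 * n + 1) % 2 = 0 then _ else _) = _
      rw [if_neg (by omega)]
      exact congrArg Sum.inr (Prod.ext (show m - n + (2 * n + 1) / 2 = m by omega)
        (show (2 * n + 1) / 2 = n by omega))
  right_inv u := by
    obtain ⟨a, b⟩ := u
    by_cases h : b % 2 = 0 <;> simp [h, Prod.ext_iff] <;> omega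

theorem hexNorm_inl (v : ℤ × ℤ) : (hexNorm (hexEquiv (.inl v)) : ℤ) = v.1 ^ 2 + 3 * v.2 ^ 2 := by
  rw [hexNorm_cast]
  simp [hexEquiv]
  ring

theorem hexNorm_inr (v : ℤ × ℤ) : (hexNorm (hexEquiv (.inr v)) : ℤ) =
    1 + v.1 + 3 * v.2 + (v.1 ^ 2 + 3 * v.2 ^ 2) := by
  rw [hexNorm_cast]
  simp [hexEquiv]
  ring

theorem hasSum_jacobiTheta₂_mul (z z' : ℂ) {τ τ' : ℂ} (hτ : 0 < im τ) (hτ' : 0 < im τ') :
    HasSum (fun v : ℤ × ℤ => jacobiTheta₂_term v.1 z τ * jacobiTheta₂_term v.2 z' τ')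
      (jacobiTheta₂ z τ * jacobiTheta₂ z' τ') := by
  have h1 := hasSum_jacobiTheta₂_term z hτ
  have h2 := hasSum_jacobiTheta₂_term z' hτ'
  exact HasSum.mul (f := fun n : ℤ => jacobiTheta₂_term n z τ)
    (g := fun n : ℤ => jacobiTheta₂_term n z' τ') h1 h2
    (summable_mul_of_summable_norm (f := fun n : ℤ => jacobiTheta₂_term n z τ)
      (g := fun n : ℤ => jacobiTheta₂_term n z' τ') h1.summable.norm h2.summable.norm)

/-- `hexThetaC` as a sum over the lattice. -/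
theorem hasSum_hexThetaC {z : ℂ} (hz : 0 < im z) :
    HasSum (fun v : ℤ × ℤ => cexp (2 * π * I * z) ^ hexNorm v) (hexThetaC z) := by
  refine hexEquiv.hasSum_iff.mp (HasSum.sum ?_ ?_)
  · refine (hasSum_jacobiTheta₂_mul 0 0 (τ := 2 * z) (τ' := 6 * z) (by simpa using hz)
      (by simpa using hz)).congr_fun fun v => ?_
    simp only [Function.comp_apply, jacobiTheta₂_term, ← Complex.exp_add, ← Complex.exp_nat_mul]
    rw [← Int.cast_natCast (R := ℂ), hexNorm_inl]
    push_cast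
    congr 1
    ring
  · rw [mul_assoc (cexp _)]
    refine ((hasSum_jacobiTheta₂_mul z (3 * z) (τ := 2 * z) (τ' := 6 * z) (by simpa using hz)
      (by simpa using hz)).mul_left (cexp (2 * π * I * z))).congr_fun fun v => ?_
    simp only [Function.comp_apply, jacobiTheta₂_term, ← Complex.exp_add, ← Complex.exp_nat_mul]
    rw [← Int.cast_natCast (R := ℂ), hexNorm_inr]
    push_cast
    congr 1
    ring

theorem hexThetaC_add_one {z : ℂ} (hz : 0 < im z) : hexThetaC (z + 1) = hexThetaC z := by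
  refine (hasSum_hexThetaC (z := z + 1) (by simpa using hz)).unique ?_
  rw [show cexp (2 * π * I * (z + 1)) = cexp (2 * π * I * z) by
    rw [mul_add, mul_one, Complex.exp_add, exp_two_pi_mul_I, mul_one]]
  exact hasSum_hexThetaC hz

/-- The lattice vectors of norm `n`. -/
def hexShell (n : ℕ) : Finset (ℤ × ℤ) :=
  (Finset.Icc (-(2 * n : ℤ)) (2 * n) ×ˢ Finset.Icc (-(2 * n : ℤ)) (2 * n)).filter
    fun v => hexNorm v = n

theorem mem_hexShell {n : ℕ} {v : ℤ × ℤ} : v ∈ hexShell n ↔ hexNorm v = n := by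
  refine ⟨fun h => (Finset.mem_filter.mp h).2, fun h => Finset.mem_filter.mpr ⟨?_, h⟩⟩
  have hn : (n : ℤ) = v.1 ^ 2 + v.1 * v.2 + v.2 ^ 2 := by rw [← h, hexNorm_cast]
  simp only [Finset.mem_product, Finset.mem_Icc]
  have h1 := Int.natAbs_le_self_sq v.1
  have h2 := Int.natAbs_le_self_sq v.2
  have h3 : v.1 ^ 2 ≤ 2 * n := by nlinarith [sq_nonneg (v.1 + 2 * v.2), sq_nonneg v.1]
  have h4 : v.2 ^ 2 ≤ 2 * n := by nlinarith [sq_nonneg (2 * v.1 + v.2), sq_nonneg v.2]
  omega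

/-- The `n`-th coefficient of the hexagonal theta series. -/
def hexCoeff (n : ℕ) : ℤ := (hexShell n).card

theorem hasSum_hexThetaC_coeff {z : ℂ} (hz : 0 < im z) :
    HasSum (fun n : ℕ => (hexCoeff n : ℂ) * cexp (2 * π * I * z) ^ n) (hexThetaC z) := by
  have h := ((Equiv.sigmaFiberEquiv hexNorm).hasSum_iff).mpr (hasSum_hexThetaC hz)
  refine h.sigma fun n => ?_
  have : Fintype {v // hexNorm v = n} := Fintype.subtype (hexShell n) fun _ => mem_hexShell
  have hcard : Fintype.card {v // hexNorm v = n} = (hexShell n).card :=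
    (Fintype.card_of_subtype (hexShell n) fun _ => mem_hexShell)
  convert hasSum_fintype (fun v : {v // hexNorm v = n} =>
    cexp (2 * π * I * z) ^ hexNorm (v : ℤ × ℤ)) using 1
  · funext v
    rfl
  · rw [Finset.sum_congr rfl fun v _ => congrArg (cexp (2 * π * I * z) ^ ·) v.2,
      Finset.sum_const, Finset.card_univ, hcard, nsmul_eq_mul, hexCoeff, Int.cast_natCast]

theorem hexCoeff_zero : hexCoeff 0 = 1 := by
  have : hexShell 0 = {(0, 0)} := by decide
  simp [hexCoeff, this]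

/-- The rotation of order three of the hexagonal lattice. -/
def hexRot (v : ℤ × ℤ) : ℤ × ℤ := (v.2, -v.1 - v.2)

theorem hexNorm_hexRot (v : ℤ × ℤ) : hexNorm (hexRot v) = hexNorm v := by
  simp only [hexNorm, hexRot]
  congr 1
  ring

theorem three_dvd_hexCoeff {n : ℕ} (hn : n ≠ 0) : (3 : ℤ) ∣ hexCoeff n := by
  have : Fact (Nat.Prime 3) := ⟨Nat.prime_three⟩
  let f : Function.End (hexShell n) := fun v =>
    ⟨hexRot v.1, mem_hexShell.mpr ((hexNorm_hexRot v.1).trans (mem_hexShell.mp v.2))⟩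
  have hf : f ^ 3 ^ 1 = 1 := by
    funext v
    refine Subtype.ext ?_
    show hexRot (hexRot (hexRot v.1)) = v.1
    simp [hexRot, Prod.ext_iff]
    omega
  have hfix : IsEmpty (Function.fixedPoints f) := by
    refine ⟨fun ⟨⟨⟨a, b⟩, hv⟩, hfv⟩ => hn ?_⟩
    have h := congrArg Subtype.val hfv
    simp only [f, hexRot, Prod.ext_iff] at h
    obtain ⟨rfl, rfl⟩ : a = 0 ∧ b = 0 := by omega
    simpa [hexNorm] using (mem_hexShell.mp hv).symm
  have h := Equiv.Perm.card_fixedPoints_modEq hf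
  rw [Fintype.card_eq_zero_iff.mpr hfix, Fintype.card_coe] at h
  exact Int.natCast_dvd_natCast.mpr (Nat.modEq_zero_iff_dvd.mp h)

end FermatAgent.LT
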