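import Fermat.Agent.LT.Galois.HexSeries

set_option autoImplicit false

/-!
# The hexagonal theta series as a form of weight one and character `χ₋₃` on `Γ₀(3)`
-/

noncomputable section

open UpperHalfPlane CongruenceSubgroup Filter Topology
open scoped Real Manifold MatrixGroups ModularForm

namespace FermatAgent.LT

/-- The character `χ₋₃` on integers. -/
def chiThree (d : ℤ) : ℤ := if d % 3 = 1 then 1 else if d % 3 = 2 then -1 else 0

theorem chiThree_congr {a b : ℤ} (h : (3 : ℤ) ∣ a - b) : chiThree a = chiThree b := by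
  unfold chiThree
  rw [show a % 3 = b % 3 by omega]

theorem chiThree_mul (a b : ℤ) : chiThree (a * b) = chiThree a * chiThree b := by
  unfold chiThree
  rw [Int.mul_emod]
  rcases (by omega : a % 3 = 0 ∨ a % 3 = 1 ∨ a % 3 = 2) with ha | ha | ha <;>
  rcases (by omega : b % 3 = 0 ∨ b % 3 = 1 ∨ b % 3 = 2) with hb | hb | hb <;> simp [ha, hb]

/-- The hexagonal theta series on the upper half plane. -/
def hexTheta (τ : ℍ) : ℂ := hexThetaC τ

theorem mdifferentiable_hexTheta : MDiff hexTheta := by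
  rw [UpperHalfPlane.mdifferentiable_iff]
  refine DifferentiableOn.congr (f := hexThetaC) ?_ fun z hz => by
    simp [hexTheta, ofComplex_apply_of_im_pos hz]
  intro z hz
  have hz' : 0 < z.im := hz
  refine DifferentiableAt.differentiableWithinAt ?_
  have key : ∀ (a b : ℂ), 0 < (b * z).im →
      DifferentiableAt ℂ (fun w => jacobiTheta₂ (a * w) (b * w)) z := fun a b hb =>
    DifferentiableAt.comp (g := fun p : ℂ × ℂ => jacobiTheta₂ p.1 p.2)
      (f := fun w : ℂ => (a * w, b * w)) z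
      (hasFDerivAt_jacobiTheta₂ (a * z) hb).differentiableAt
      ((differentiableAt_id.const_mul a).prodMk (differentiableAt_id.const_mul b))
  have h1 := key 0 2 (by simpa using hz')
  have h2 := key 0 6 (by simpa using hz')
  have h3 := key 1 2 (by simpa using hz')
  have h4 := key 3 6 (by simpa using hz')
  simp only [zero_mul, one_mul] at h1 h2 h3
  exact (h1.mul h2).add ((((differentiableAt_id.const_mul (2 * (π : ℂ) * Complex.I)).cexp).mul
    h3).mul h4)

theorem hexTheta_hasSum (τ : ℍ) :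
    HasSum (fun n : ℕ => (hexCoeff n : ℂ) • Function.Periodic.qParam 1 (τ : ℂ) ^ n)
      (hexTheta τ) := by
  simpa [Function.Periodic.qParam, hexTheta] using hasSum_hexThetaC_coeff τ.im_pos

theorem isBoundedAtImInfty_hexTheta : IsBoundedAtImInfty hexTheta :=
  isBoundedAtImInfty_of_hasSum_qExpansion one_pos hexTheta_hasSum

/-! ### Transformation behaviour -/

theorem hexTheta_slash_apply (γ : SL(2, ℤ)) (τ : ℍ) :
    (hexTheta ∣[(1 : ℤ)] γ) τ =
      hexThetaC ((((γ 0 0 : ℤ) : ℂ) * τ + (γ 0 1 : ℤ)) / (((γ 1 0 : ℤ) : ℂ) * τ + (γ 1 1 : ℤ))) *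
        (((γ 1 0 : ℤ) : ℂ) * τ + (γ 1 1 : ℤ))⁻¹ := by
  rw [ModularForm.SL_slash_apply, hexTheta, UpperHalfPlane.coe_specialLinearGroup_apply]
  simp [denom, zpow_neg]

/-- The matrix `(1, 0; 3, 1)`. -/
def lowerThree : SL(2, ℤ) := ⟨!![1, 0; 3, 1], by simp [Matrix.det_fin_two]⟩

/-- The group of transformations of `hexTheta` by the character. -/
def hexSymm : Subgroup SL(2, ℤ) where
  carrier := {γ | γ ∈ Gamma0 3 ∧ hexTheta ∣[(1 : ℤ)] γ = (chiThree (γ 1 1) : ℂ) • hexTheta}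
  one_mem' := ⟨one_mem _, by simp [chiThree]⟩
  mul_mem' := fun {a b} ha hb => by
    refine ⟨mul_mem ha.1 hb.1, ?_⟩
    rw [SlashAction.slash_mul, ha.2, ModularForm.SL_smul_slash, hb.2, smul_smul, ← Int.cast_mul,
      ← chiThree_mul]
    congr 2
    refine chiThree_congr ?_
    have h3 : (3 : ℤ) ∣ a 1 0 := (ZMod.intCast_zmod_eq_zero_iff_dvd _ 3).mp (Gamma0_mem.mp ha.1)
    simp only [Matrix.SpecialLinearGroup.coe_mul, Matrix.mul_apply, Fin.sum_univ_two]
    simpa using h3.mul_right (b 0 1) |>.neg_right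
  inv_mem' := fun {a} ha => by
    refine ⟨inv_mem ha.1, ?_⟩
    have h3 : (3 : ℤ) ∣ a 1 0 := (ZMod.intCast_zmod_eq_zero_iff_dvd _ 3).mp (Gamma0_mem.mp ha.1)
    have hdet : a 0 0 * a 1 1 - a 0 1 * a 1 0 = 1 := by
      rw [← Matrix.det_fin_two]; exact a.2
    have hinv : (a⁻¹ : SL(2, ℤ)) 1 1 = a 0 0 := by
      simp [Matrix.SpecialLinearGroup.SL2_inv_expl]
    have hone : chiThree (a 1 1) * chiThree (a 0 0) = 1 := by
      rw [← chiThree_mul, chiThree_congr (b := 1) ?_]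
      · simp [chiThree]
      · rw [show a 1 1 * a 0 0 - 1 = a 0 1 * a 1 0 by linear_combination hdet]
        exact h3.mul_left _
    have h := congrArg (fun f : ℍ → ℂ => f ∣[(1 : ℤ)] a⁻¹) ha.2
    simp only [← SlashAction.slash_mul, mul_inv_cancel, SlashAction.slash_one,
      ModularForm.SL_smul_slash] at h
    have hone' : (chiThree (a 1 1) : ℂ) * (chiThree (a 0 0) : ℂ) = 1 := by exact_mod_cast hone
    rw [hinv]
    conv_rhs => rw [h, smul_smul, mul_comm, hone', one_smul]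

theorem T_mem_hexSymm : ModularGroup.T ∈ hexSymm := by
  refine ⟨Gamma0_mem.mpr (by simp [ModularGroup.coe_T]), funext fun τ => ?_⟩
  rw [hexTheta_slash_apply]
  simp [ModularGroup.coe_T, chiThree, hexTheta, hexThetaC_add_one τ.im_pos]

theorem neg_one_mem_hexSymm : (-1 : SL(2, ℤ)) ∈ hexSymm := by
  refine ⟨Gamma0_mem.mpr (by simp), funext fun τ => ?_⟩
  rw [hexTheta_slash_apply]
  simp [chiThree, hexTheta, neg_div_neg_eq]

theorem lowerThree_mem_hexSymm : lowerThree ∈ hexSymm := by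
  refine ⟨Gamma0_mem.mpr (by simp [lowerThree]; rfl), funext fun τ => ?_⟩
  rw [hexTheta_slash_apply]
  simp only [lowerThree, Matrix.of_apply, Matrix.cons_val', Matrix.cons_val_zero,
    Matrix.cons_val_one, Matrix.cons_val_fin_one, Int.cast_one, Int.cast_zero,
    one_mul, add_zero, Int.cast_ofNat, Pi.smul_apply, smul_eq_mul]
  set z : ℂ := (τ : ℂ) with hzdef
  have hz : 0 < z.im := τ.im_pos
  have hz0 : z ≠ 0 := fun h => by simp [h] at hz
  have hd : 3 * z + 1 ≠ 0 := fun h => by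
    have := congrArg Complex.im h
    simp at this
    linarith
  have hw : 0 < (-1 / (3 * z)).im := by
    rw [neg_div, Complex.neg_im, one_div, Complex.inv_im, neg_div, neg_neg]
    refine div_pos ?_ (Complex.normSq_pos.mpr (by simp [hz0]))
    simpa using hz
  have hw1 : 0 < (-1 / (3 * z) - 1).im := by simpa using hw
  have e : z / (3 * z + 1) = -1 / (3 * (-1 / (3 * z) - 1)) := by
    rw [show 3 * (-1 / (3 * z) - 1) = -(3 * z + 1) / z by field_simp; ring, div_div_eq_mul_div,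
      neg_one_mul, neg_div_neg_eq]
  have hper : hexThetaC (-1 / (3 * z) - 1) = hexThetaC (-1 / (3 * z)) := by
    conv_rhs => rw [← sub_add_cancel (-1 / (3 * z)) 1, hexThetaC_add_one hw1]
  have h3 : (Real.sqrt 3 : ℂ) ^ 2 = 3 := by
    rw [← Complex.ofReal_pow, Real.sq_sqrt (by norm_num)]; norm_num
  rw [e, hexThetaC_fricke hw1, hper, hexThetaC_fricke hz]
  simp only [hexTheta, chiThree]
  norm_num
  field_simp
  rw [h3, Complex.I_sq]
  ring

/-- `Γ₀(3)` is generated by `-1`, the translation and `lowerThree`. -/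
theorem Gamma0_three_le_hexSymm : Gamma0 3 ≤ hexSymm := by
  suffices ∀ n : ℕ, ∀ γ : SL(2, ℤ), γ ∈ Gamma0 3 →
      (γ 0 0).natAbs + (γ 1 0).natAbs = n → γ ∈ hexSymm from fun γ hγ => this _ γ hγ rfl
  intro n
  induction n using Nat.strong_induction_on with
  | _ n ih =>
  intro γ hγ hn
  have h3 : (3 : ℤ) ∣ γ 1 0 := (ZMod.intCast_zmod_eq_zero_iff_dvd _ 3).mp (Gamma0_mem.mp hγ)
  have hdet : γ 0 0 * γ 1 1 - γ 0 1 * γ 1 0 = 1 := by
    rw [← Matrix.det_fin_two]; exact γ.2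
  have step : ∀ g ∈ hexSymm, ((g * γ) 0 0).natAbs + ((g * γ) 1 0).natAbs < n → γ ∈ hexSymm :=
    fun g hg hlt => by
      have := mul_mem (inv_mem hg) (ih _ hlt (g * γ) (mul_mem hg.1 hγ) rfl)
      rwa [inv_mul_cancel_left] at this
  have ha : γ 0 0 ≠ 0 := fun h0 => by
    rw [h0, zero_mul, zero_sub] at hdet
    have h1 : (3 : ℤ) ∣ 1 := hdet ▸ ((h3.mul_left _).neg_right)
    norm_num at h1
  by_cases hc : γ 1 0 = 0
  · rw [hc, mul_zero, sub_zero] at hdet
    rcases Int.mul_eq_one_iff_eq_one_or_neg_one.mp hdet with ⟨e1, e2⟩ | ⟨e1, e2⟩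
    · rw [show γ = ModularGroup.T ^ (γ 0 1) by
        refine Subtype.ext ?_
        rw [ModularGroup.coe_T_zpow]
        ext i j
        fin_cases i <;> fin_cases j <;> simp [e1, e2, hc]]
      exact zpow_mem T_mem_hexSymm _
    · rw [show γ = -1 * ModularGroup.T ^ (-γ 0 1) by
        refine Subtype.ext ?_
        rw [Matrix.SpecialLinearGroup.coe_mul, ModularGroup.coe_T_zpow]
        ext i j
        fin_cases i <;> fin_cases j <;> simp [e1, e2, hc]]
      exact mul_mem neg_one_mem_hexSymm (zpow_mem T_mem_hexSymm _)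
  have hT : ∀ g : SL(2, ℤ), ((ModularGroup.T * g) 0 0 = g 0 0 + g 1 0 ∧
      (ModularGroup.T * g) 1 0 = g 1 0) ∧ ((ModularGroup.T⁻¹ * g) 0 0 = g 0 0 - g 1 0 ∧
      (ModularGroup.T⁻¹ * g) 1 0 = g 1 0) := fun g => by
    simp [Matrix.SpecialLinearGroup.coe_mul, ModularGroup.coe_T,
      Matrix.mul_apply, Fin.sum_univ_two, ← sub_eq_add_neg]
  have hU : ∀ g : SL(2, ℤ), ((lowerThree * g) 0 0 = g 0 0 ∧
      (lowerThree * g) 1 0 = 3 * g 0 0 + g 1 0) ∧ ((lowerThree⁻¹ * g) 0 0 = g 0 0 ∧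
      (lowerThree⁻¹ * g) 1 0 = -(3 * g 0 0) + g 1 0) := fun g => by
    have e : ((lowerThree⁻¹ : SL(2, ℤ)) : Matrix (Fin 2) (Fin 2) ℤ) = !![1, 0; -3, 1] := by
      rw [Matrix.SpecialLinearGroup.coe_inv, Matrix.adjugate_fin_two]
      simp [lowerThree]
    have e' : ((lowerThree : SL(2, ℤ)) : Matrix (Fin 2) (Fin 2) ℤ) = !![1, 0; 3, 1] := rfl
    simp [Matrix.SpecialLinearGroup.coe_mul, e, e', Matrix.mul_apply, Fin.sum_univ_two]
  obtain ⟨⟨t1, t2⟩, t3, t4⟩ := hT γ
  obtain ⟨⟨u1, u2⟩, u3, u4⟩ := hU γ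
  by_cases hbig : (γ 1 0).natAbs < 2 * (γ 0 0).natAbs
  · by_cases hs : 0 < γ 0 0 * γ 1 0
    · refine step _ (inv_mem T_mem_hexSymm) ?_
      rw [t3, t4]
      rcases pos_and_pos_or_neg_and_neg_of_mul_pos hs with h | h <;> omega
    · refine step _ T_mem_hexSymm ?_
      rw [t1, t2]
      rcases mul_nonpos_iff.mp (not_lt.mp hs) with h | h <;> omega
  · by_cases hs : 0 < γ 0 0 * γ 1 0
    · refine step _ (inv_mem lowerThree_mem_hexSymm) ?_
      rw [u3, u4]
      rcases pos_and_pos_or_neg_and_neg_of_mul_pos hs with h | h <;> omega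
    · refine step _ lowerThree_mem_hexSymm ?_
      rw [u1, u2]
      rcases mul_nonpos_iff.mp (not_lt.mp hs) with h | h <;> omega

theorem hexTheta_slash_Gamma0 {γ : SL(2, ℤ)} (hγ : γ ∈ Gamma0 3) :
    hexTheta ∣[(1 : ℤ)] γ = (chiThree (γ 1 1) : ℂ) • hexTheta :=
  (Gamma0_three_le_hexSymm hγ).2

theorem isBoundedAtImInfty_hexTheta_slash (γ : SL(2, ℤ)) :
    IsBoundedAtImInfty (hexTheta ∣[(1 : ℤ)] γ) := by
  by_cases hγ : γ ∈ Gamma0 3
  · rw [hexTheta_slash_Gamma0 hγ]
    exact isBoundedAtImInfty_hexTheta.smul _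
  set j : ℤ := γ 1 0 * γ 1 1 with hj
  set δ : SL(2, ℤ) := γ * (ModularGroup.S * ModularGroup.T ^ j)⁻¹ with hδ
  have hc : ¬ (3 : ℤ) ∣ γ 1 0 := fun h =>
    hγ (Gamma0_mem.mpr ((ZMod.intCast_zmod_eq_zero_iff_dvd _ 3).mpr h))
  have hδ0 : δ ∈ Gamma0 3 := by
    refine Gamma0_mem.mpr ((ZMod.intCast_zmod_eq_zero_iff_dvd _ 3).mpr ?_)
    have : δ 1 0 = γ 1 0 * j - γ 1 1 := by
      have e : γ = δ * (ModularGroup.S * ModularGroup.T ^ j) := by rw [hδ, inv_mul_cancel_right]
      rw [e]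
      simp [Matrix.SpecialLinearGroup.coe_mul, ModularGroup.coe_T_zpow, ModularGroup.coe_S,
        Matrix.mul_apply, Fin.sum_univ_two]
    rw [this, hj, show γ 1 0 * (γ 1 0 * γ 1 1) - γ 1 1 = γ 1 1 * (γ 1 0 * γ 1 0 - 1) by ring]
    refine Dvd.dvd.mul_left ?_ _
    rcases (by omega : γ 1 0 % 3 = 1 ∨ γ 1 0 % 3 = 2) with h | h
    · obtain ⟨k, hk⟩ : ∃ k, γ 1 0 = 3 * k + 1 := ⟨γ 1 0 / 3, by omega⟩
      exact ⟨3 * k ^ 2 + 2 * k, by rw [hk]; ring⟩
    · obtain ⟨k, hk⟩ : ∃ k, γ 1 0 = 3 * k + 2 := ⟨γ 1 0 / 3, by omega⟩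
      exact ⟨3 * k ^ 2 + 4 * k + 1, by rw [hk]; ring⟩
  rw [show γ = δ * (ModularGroup.S * ModularGroup.T ^ j) by rw [hδ, inv_mul_cancel_right],
    SlashAction.slash_mul, hexTheta_slash_Gamma0 hδ0, ModularForm.SL_smul_slash]
  refine Filter.BoundedAtFilter.smul _ ?_
  obtain ⟨B, A, hA⟩ := isBoundedAtImInfty_iff.mp isBoundedAtImInfty_hexTheta
  refine isBoundedAtImInfty_iff.mpr ⟨‖-(Complex.I * Real.sqrt 3) / 3‖ * B, 3 * A, fun τ hτ => ?_⟩
  rw [hexTheta_slash_apply]
  simp only [Matrix.SpecialLinearGroup.coe_mul, ModularGroup.coe_S, ModularGroup.coe_T_zpow,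
    Matrix.mul_apply, Fin.sum_univ_two, Matrix.of_apply, Matrix.cons_val', Matrix.cons_val_zero,
    Matrix.cons_val_one, Matrix.cons_val_fin_one, mul_zero, zero_mul, mul_one, one_mul, zero_add,
    add_zero, Int.cast_zero, Int.cast_one, Int.cast_neg]
  set u : ℂ := ((τ : ℂ) + j) / 3 with hu
  have hui : u.im = τ.im / 3 := by simp [hu]
  have hu0 : 0 < u.im := by rw [hui]; exact div_pos τ.im_pos three_pos
  have hu1 : (τ : ℂ) + j ≠ 0 := fun h => by
    have := congrArg Complex.im h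
    simp at this
    exact absurd this τ.im_ne_zero
  rw [show -(1 : ℂ) / ((τ : ℂ) + j) = -1 / (3 * u) by rw [hu]; field_simp,
    hexThetaC_fricke hu0]
  have hb := hA ⟨u, hu0⟩ (by
    show A ≤ u.im
    rw [hui]
    linarith)
  calc ‖-Complex.I * Real.sqrt 3 * u * hexThetaC u * ((τ : ℂ) + j)⁻¹‖
      = ‖-(Complex.I * Real.sqrt 3) / 3‖ * ‖hexTheta ⟨u, hu0⟩‖ := by
        rw [← norm_mul]
        congr 1
        simp only [hexTheta, hu]
        field_simp
    _ ≤ _ := mul_le_mul_of_nonneg_left hb (norm_nonneg _)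

/-! ### The `q`-expansion -/

theorem periodic_hexTheta : Function.Periodic (hexTheta ∘ ofComplex) (1 : ℝ) := by
  intro w
  by_cases hw : 0 < w.im
  · have hw' : 0 < (w + ((1 : ℝ) : ℂ)).im := by simpa using hw
    simp only [Function.comp_apply, ofComplex_apply_of_im_pos hw, ofComplex_apply_of_im_pos hw',
      hexTheta]
    simpa using hexThetaC_add_one hw
  · have hw' : (w + ((1 : ℝ) : ℂ)).im ≤ 0 := by simpa using le_of_not_gt hw
    simp only [Function.comp_apply, ofComplex_apply_of_im_nonpos (le_of_not_gt hw),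
      ofComplex_apply_of_im_nonpos hw']

theorem analyticAt_cuspFunction_hexTheta : AnalyticAt ℂ (cuspFunction 1 hexTheta) 0 :=
  analyticAt_cuspFunction_zero one_pos periodic_hexTheta mdifferentiable_hexTheta
    isBoundedAtImInfty_hexTheta

/-- The hexagonal theta series as an integral power series. -/
def hexSeries : PowerSeries ℤ := PowerSeries.mk hexCoeff

theorem qExpansion_hexTheta :
    qExpansion 1 hexTheta = hexSeries.map (Int.castRingHom ℂ) := by
  ext n
  let F : C(ℍ, ℂ) := ⟨hexTheta, mdifferentiable_hexTheta.continuous⟩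
  have h := qExpansion_coeff_unique (c := fun m => (hexCoeff m : ℂ)) F one_pos
    analyticAt_cuspFunction_hexTheta hexTheta_hasSum n
  rw [PowerSeries.coeff_map, hexSeries, PowerSeries.coeff_mk, eq_intCast]
  exact h.symm

theorem constantCoeff_hexSeries : PowerSeries.constantCoeff hexSeries = 1 := by
  rw [← PowerSeries.coeff_zero_eq_constantCoeff_apply, hexSeries, PowerSeries.coeff_mk,
    hexCoeff_zero]

theorem hexSeries_map_zmod : hexSeries.map (Int.castRingHom (ZMod 3)) = 1 := by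
  ext n
  rw [PowerSeries.coeff_map, hexSeries, PowerSeries.coeff_mk, PowerSeries.coeff_one]
  split_ifs with hn
  · simp [hn, hexCoeff_zero]
  · exact (ZMod.intCast_zmod_eq_zero_iff_dvd _ 3).mpr (three_dvd_hexCoeff hn)

end FermatAgent.LT
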