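import Fermat.Agent.LT.Galois.HexTheta
import Fermat.Agent.ModCurve.Forms.Basic
import Fermat.Prelude.Def_FLTPrelim_Modularity
import Fermat.Prelude.Thm_CongruenceSubgroup_one_mem_strictPeriods_Gamma0

set_option autoImplicit false

/-!
# Twisting a weight two eigenform on `Γ₀(M)`, `3 ∣ M`, by `χ₋₃`
-/

noncomputable section

open UpperHalfPlane CongruenceSubgroup ModularFormClass Filter
open scoped Real Manifold MatrixGroups ModularForm Topology Pointwise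

namespace FermatAgent.LT

/-- Translation by a rational number, as a rational matrix. -/
def transQ (x : ℚ) : GL (Fin 2) ℚ :=
  Matrix.GeneralLinearGroup.mkOfDetNeZero !![1, x; 0, 1] (by simp [Matrix.det_fin_two])

/-- Translation by a rational number. -/
def transR (x : ℚ) : GL (Fin 2) ℝ := (transQ x).map (Rat.castHom ℝ)

theorem coe_transR (x : ℚ) :
    (transR x : Matrix (Fin 2) (Fin 2) ℝ) = !![1, (x : ℝ); 0, 1] := by
  ext i j
  fin_cases i <;> fin_cases j <;> simp [transR, transQ]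

theorem slash_transR_apply (f : ℍ → ℂ) (x : ℚ) (τ : ℍ) :
    (f ∣[(2 : ℤ)] transR x) τ = f ((x : ℝ) +ᵥ τ) := by
  have hdet : (transR x).det.val = 1 := by
    rw [Matrix.GeneralLinearGroup.val_det_apply, coe_transR]
    simp [Matrix.det_fin_two]
  have hden : denom (transR x) τ = 1 := by simp [denom, coe_transR]
  have hsmul : transR x • τ = (x : ℝ) +ᵥ τ := by
    ext
    rw [coe_smul_of_det_pos (by rw [hdet]; exact one_pos), hden]
    simp [num, coe_transR, add_comm]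
  rw [ModularForm.slash_apply, hdet, hden, hsmul]
  simp [σ, hdet]

variable {M : ℕ} [NeZero M]

theorem isZeroAtImInfty_transR_slash (g : CuspForm (Gamma0 M) 2) (x : ℚ) (δ : SL(2, ℤ)) :
    IsZeroAtImInfty ((⇑g ∣[(2 : ℤ)] transR x) ∣[(2 : ℤ)] δ) := by
  have : (ConjAct.toConjAct (transR x)⁻¹ •
      (Gamma0 M : Subgroup (GL (Fin 2) ℝ))).IsArithmetic := by
    rw [transR, ← map_inv]
    exact Subgroup.IsArithmetic.conj _ _
  exact CuspFormClass.zero_at_infty_slash (CuspForm.translate g (transR x)) δ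

omit [NeZero M] in
theorem transR_mul_mem {x : ℚ} {t : ℤ} (hx : (x : ℚ) = t / 3) (hM : 3 ∣ M) {γ : SL(2, ℤ)}
    (hγ : γ ∈ Gamma0 (3 * M)) :
    ∃ δ ∈ Gamma0 M, transR x * (γ : GL (Fin 2) ℝ) = (δ : GL (Fin 2) ℝ) * transR x := by
  obtain ⟨u, hu⟩ := (ZMod.intCast_zmod_eq_zero_iff_dvd _ _).mp (Gamma0_mem.mp hγ)
  obtain ⟨m, hm⟩ : (3 : ℤ) ∣ M := by exact_mod_cast hM
  have hdet : γ 0 0 * γ 1 1 - γ 0 1 * γ 1 0 = 1 := by
    rw [← Matrix.det_fin_two]; exact γ.2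
  obtain ⟨v, hv⟩ : (3 : ℤ) ∣ γ 1 1 - γ 0 0 := by
    have h1 : ((γ 1 0 : ℤ) : ZMod 3) = 0 := by
      rw [hu]; push_cast; rw [show (3 : ZMod 3) = 0 from rfl, zero_mul, zero_mul]
    have h2 := congrArg (Int.cast : ℤ → ZMod 3) hdet
    push_cast [h1] at h2
    rw [mul_zero, sub_zero] at h2
    refine (ZMod.intCast_eq_intCast_iff_dvd_sub _ _ 3).mp ?_
    exact (by decide : ∀ a d : ZMod 3, a * d = 1 → a = d) _ _ h2
  set c₃ : ℤ := M * u with hc
  have hc3 : γ 1 0 = 3 * c₃ := by rw [hu, hc]; push_cast; ring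
  have hc9 : c₃ = 3 * (m * u) := by rw [hc, hm]; ring
  let N : Matrix (Fin 2) (Fin 2) ℤ :=
    !![γ 0 0 + t * c₃, γ 0 1 + t * v - t ^ 2 * (m * u); γ 1 0, γ 1 1 - t * c₃]
  have hN : N.det = 1 := by
    rw [Matrix.det_fin_two_of]
    linear_combination hdet + t * c₃ * hv + (-(t * v) + t ^ 2 * (m * u)) * hc3 -
      t ^ 2 * c₃ * hc9
  refine ⟨⟨N, hN⟩, Gamma0_mem.mpr ((ZMod.intCast_zmod_eq_zero_iff_dvd _ _).mpr
    ⟨3 * u, show γ 1 0 = _ by rw [hu]; push_cast; ring⟩), Units.ext ?_⟩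
  have hv' : ((γ 1 1 : ℤ) : ℝ) - (γ 0 0 : ℤ) = 3 * v := by exact_mod_cast hv
  have hc3' : ((γ 1 0 : ℤ) : ℝ) = 3 * c₃ := by exact_mod_cast hc3
  have hc9' : (c₃ : ℝ) = 3 * (m * u) := by exact_mod_cast hc9
  have hcast : ∀ A : SL(2, ℤ), ((A : GL (Fin 2) ℝ) : Matrix (Fin 2) (Fin 2) ℝ) =
      (A : Matrix (Fin 2) (Fin 2) ℤ).map (Int.cast : ℤ → ℝ) := fun A => rfl
  rw [Units.val_mul, Units.val_mul, coe_transR, hx, hcast γ]
  erw [hcast ⟨N, hN⟩]
  ext i j
  fin_cases i <;> fin_cases j <;> simp [N, Matrix.mul_apply, Fin.sum_univ_two]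
  · linear_combination ((t : ℝ) / 3) * hc3'
  · linear_combination ((t : ℝ) / 3) * hv' - (t : ℝ) ^ 2 / 3 * hc9'
  · linear_combination -((t : ℝ) / 3) * hc3'

/-- The twist of a form by `χ₋₃`, as a function. -/
def twistFun (g : CuspForm (Gamma0 M) 2) : ℍ → ℂ :=
  (Complex.I * Real.sqrt 3)⁻¹ •
    (⇑g ∣[(2 : ℤ)] transR (1 / 3) - ⇑g ∣[(2 : ℤ)] transR (-1 / 3))

theorem twistFun_isCF (g : CuspForm (Gamma0 M) 2) (hM : 3 ∣ M) :
    ModCurve.Forms.IsCF (Gamma0 (3 * M)) 2 (twistFun g) := by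
  have hinv : ∀ (x : ℚ) (t : ℤ), x = t / 3 → ∀ γ ∈ Gamma0 (3 * M),
      (⇑g ∣[(2 : ℤ)] transR x) ∣[(2 : ℤ)] γ = ⇑g ∣[(2 : ℤ)] transR x := by
    intro x t hx γ hγ
    obtain ⟨δ, hδ, h⟩ := transR_mul_mem hx hM hγ
    rw [ModularForm.SL_slash, ← SlashAction.slash_mul, h, SlashAction.slash_mul]
    exact congrArg (fun f : ℍ → ℂ => f ∣[(2 : ℤ)] transR x)
      (SlashInvariantFormClass.slash_action_eq g _ (Subgroup.mem_map_of_mem _ hδ))
  have hholo : ∀ x : ℚ, MDiff (⇑g ∣[(2 : ℤ)] transR x) := fun x =>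
    (CuspForm.translate g (transR x)).holo'
  have hzero : ∀ δ : SL(2, ℤ), IsZeroAtImInfty (twistFun g ∣[(2 : ℤ)] δ) := fun δ => by
    rw [twistFun, ModularForm.SL_smul_slash, sub_eq_add_neg, SlashAction.add_slash, SlashAction.neg_slash]
    exact Filter.ZeroAtFilter.smul _ ((isZeroAtImInfty_transR_slash g _ δ).add
      (isZeroAtImInfty_transR_slash g _ δ).neg)
  refine ⟨⟨((hholo _).sub (hholo _)).const_smul _, fun γ hγ => ?_,
    fun γ => (hzero γ).isBoundedAtImInfty⟩, hzero⟩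
  rw [twistFun, ModularForm.SL_smul_slash, sub_eq_add_neg, SlashAction.add_slash, SlashAction.neg_slash,
    hinv _ 1 (by norm_num) γ hγ, hinv _ (-1) (by norm_num) γ hγ]

/-- The twist of a form by `χ₋₃`. -/
def twistForm (g : CuspForm (Gamma0 M) 2) (hM : 3 ∣ M) : CuspForm (Gamma0 (3 * M)) 2 :=
  (twistFun_isCF g hM).toCuspForm

theorem exp_two_pi_third :
    Complex.exp (2 * π * Complex.I / 3) = (-1 + Complex.I * Real.sqrt 3) / 2 := by
  rw [show 2 * (π : ℂ) * Complex.I / 3 = ((π - π / 3 : ℝ) : ℂ) * Complex.I by push_cast; ring,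
    Complex.exp_mul_I, ← Complex.ofReal_cos, ← Complex.ofReal_sin, Real.cos_pi_sub,
    Real.sin_pi_sub, Real.cos_pi_div_three, Real.sin_pi_div_three]
  push_cast
  ring

theorem root_pow_sub (n : ℕ) (ω : ℂ) (hω : ω ^ 3 = 1) :
    ω ^ n - ω⁻¹ ^ n = chiThree n * (ω - ω⁻¹) := by
  have hinv : ω⁻¹ = ω ^ 2 := inv_eq_of_mul_eq_one_right (by rw [← pow_succ', hω])
  rw [hinv, ← pow_mul, pow_eq_pow_mod n hω, pow_eq_pow_mod (2 * n) hω, Nat.mul_mod]
  unfold chiThree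
  rcases (by omega : n % 3 = 0 ∨ n % 3 = 1 ∨ n % 3 = 2) with h | h | h
  · rw [h, if_neg (by omega), if_neg (by omega)]
    norm_num
  · rw [h, if_pos (by omega)]
    norm_num
  · rw [h, if_neg (by omega), if_pos (by omega)]
    norm_num

theorem qCoeff_twistForm (g : CuspForm (Gamma0 M) 2) (hM : 3 ∣ M) (n : ℕ) :
    qCoeff ⇑(twistForm g hM) n = chiThree n * qCoeff ⇑g n := by
  symm
  refine ModularFormClass.qExpansion_coeff_unique (Γ := (Gamma0 (3 * M) : Subgroup (GL (Fin 2) ℝ)))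
    (k := 2) (c := fun m => (chiThree m : ℂ) * qCoeff ⇑g m) one_pos
    (one_mem_strictPeriods_Gamma0 _) (fun τ => ?_) n
  set ω := Complex.exp (2 * π * Complex.I / 3) with hω
  have hω3 : ω ^ 3 = 1 := by
    rw [hω, ← Complex.exp_nat_mul, show ((3 : ℕ) : ℂ) * (2 * π * Complex.I / 3) = 2 * π * Complex.I by
      push_cast; ring, Complex.exp_two_pi_mul_I]
  have hωinv : Complex.exp (2 * π * Complex.I * (-1 / 3)) = ω⁻¹ := by
    rw [hω, ← Complex.exp_neg]; congr 1; ring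
  have hd : ω - ω⁻¹ = Complex.I * Real.sqrt 3 := by
    rw [inv_eq_of_mul_eq_one_right (show ω * ω ^ 2 = 1 by rw [← pow_succ', hω3]), hω,
      exp_two_pi_third]
    have h3 : (Real.sqrt 3 : ℂ) ^ 2 = 3 := by
      rw [← Complex.ofReal_pow, Real.sq_sqrt (by norm_num)]; norm_num
    linear_combination (1 / 4 : ℂ) * h3 - (Real.sqrt 3 : ℂ) ^ 2 / 4 * Complex.I_sq
  have hne : (Complex.I * Real.sqrt 3 : ℂ) ≠ 0 := by simp
  have hs : ∀ x : ℚ, HasSum (fun m => qCoeff ⇑g m * (Function.Periodic.qParam 1 (τ : ℂ) ^ m *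
      Complex.exp (2 * π * Complex.I * (x : ℂ)) ^ m)) ((⇑g ∣[(2 : ℤ)] transR x) τ) := fun x => by
    rw [slash_transR_apply]
    refine (ModularForm.hasSum_qExpansion g one_pos (one_mem_strictPeriods_Gamma0 M)
      ((x : ℝ) +ᵥ τ)).congr_fun fun m => ?_
    rw [← mul_pow]
    congr 2
    simp only [Function.Periodic.qParam, UpperHalfPlane.coe_vadd, ← Complex.exp_add]
    congr 1
    push_cast
    ring
  refine (((hs (1 / 3)).sub (hs (-1 / 3))).mul_left (Complex.I * Real.sqrt 3)⁻¹).congr_fun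
    fun m => ?_
  push_cast
  rw [hωinv, show 2 * (π : ℂ) * Complex.I * (1 / 3) = 2 * π * Complex.I / 3 by ring, ← hω,
    smul_eq_mul, ← mul_sub, ← mul_sub, root_pow_sub m ω hω3, hd]
  field_simp

theorem chiThree_natMul (a b : ℕ) :
    chiThree ((a * b : ℕ) : ℤ) = chiThree a * chiThree b := by
  rw [Nat.cast_mul, chiThree_mul]

theorem twistForm_isNormalizedEigenform {g : CuspForm (Gamma0 M) 2} (hg : g.IsNormalizedEigenform)
    (hM : 3 ∣ M) : (twistForm g hM).IsNormalizedEigenform := by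
  have hdvd : ∀ p : ℕ, p.Prime → (p ∣ 3 * M ↔ p ∣ M) := fun p hp =>
    ⟨fun h => (hp.dvd_mul.mp h).elim (fun h3 => h3.trans hM) id, fun h => h.mul_left 3⟩
  refine ⟨?_, fun m n h => ?_, fun p r hp hpM => ?_, fun p r hp hpM => ?_⟩
  · rw [qCoeff_twistForm, hg.qCoeff_one]
    simp [chiThree]
  · rw [qCoeff_twistForm, qCoeff_twistForm, qCoeff_twistForm, hg.qCoeff_mul_of_coprime m n h,
      chiThree_natMul, Int.cast_mul]
    ring
  · rw [hdvd p hp] at hpM
    have hp3 : ¬ 3 ∣ p := fun h =>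
      hpM (((Nat.prime_dvd_prime_iff_eq Nat.prime_three hp).mp h) ▸ hM)
    have hsq : chiThree p * chiThree p = 1 := by
      unfold chiThree
      rcases (by omega : (p : ℤ) % 3 = 1 ∨ (p : ℤ) % 3 = 2) with h | h <;> simp [h]
    have hsq' : (chiThree p : ℂ) * chiThree p = 1 := by exact_mod_cast hsq
    simp only [qCoeff_twistForm, hg.qCoeff_prime_pow_of_not_dvd p r hp hpM]
    simp only [pow_succ, chiThree_natMul, Int.cast_mul]
    linear_combination (-(p : ℂ) * qCoeff ⇑g (p ^ r) * (chiThree (p ^ r : ℕ) : ℂ)) * hsq'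
  · rw [hdvd p hp] at hpM
    simp only [qCoeff_twistForm, hg.qCoeff_prime_pow_of_dvd p r hp hpM]
    simp only [pow_succ, chiThree_natMul, Int.cast_mul]
    ring

end FermatAgent.LT
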