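import Fermat.Agent.LT.Lift.Main
import Fermat.Prelude.Def_FLTPrelim_ModularRep
import Fermat.Agent.LT.Galois.Compare
import Fermat.Agent.LT.Galois.Twist

set_option autoImplicit false

/-!
# From weight one to residual modularity in weight two
-/

noncomputable section

open ModularFormClass CongruenceSubgroup

namespace FermatAgent.LT

/-- The residual representation of `S` is modular of weight `2` and trivial character. -/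
def Setup.IsModular (S : Setup) : Prop :=
  ∃ (M : ℕ) (g : CuspForm (Gamma0 M) 2) (𝔪 : Ideal (integralClosure ℤ ℂ)),
    0 < M ∧ (∀ q : ℕ, q.Prime → q ≠ 3 → ¬ q ^ 3 ∣ M) ∧ g.IsNormalizedEigenform ∧ 𝔪.IsMaximal ∧
    (3 : integralClosure ℤ ℂ) ∈ 𝔪 ∧
    ∀ ℓ : ℕ, ℓ.Prime → ¬ ℓ ∣ 3 * S.m → ¬ ℓ ∣ M →
      ∀ A : ValuationSubring (AlgebraicClosure ℚ), A.LiesOverPrime ℓ → ∀ σ, A.IsFrobeniusAt σ ℓ →
        ∃ a : integralClosure ℤ ℂ, (a : ℂ) = qCoeff g ℓ ∧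
          a - (((Matrix.trace ((S.ρ σ : GL (Fin 2) (ZMod 3)) : Matrix (Fin 2) (Fin 2) (ZMod 3))).val
            : ℕ) : integralClosure ℤ ℂ) ∈ 𝔪

theorem chiThree_sub_natCast_dvd (n : ℕ) : (3 : ℤ) ∣ chiThree n - n := by
  unfold chiThree
  split_ifs <;> omega

theorem isModular_of_weightOne {S : Setup} (h : Nonempty (WeightOneSource S)) : S.IsModular := by
  obtain ⟨W⟩ := h
  have : NeZero W.M := ⟨W.M_pos.ne'⟩
  obtain ⟨g, 𝔪, hg, hmax, h3, e, he⟩ := W.exists_eigenform_trace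
  have hℓ3 : ∀ ℓ : ℕ, ℓ.Prime → ¬ ℓ ∣ 3 * S.m → ℓ ≠ 3 := fun ℓ _ hl h3' =>
    hl (h3' ▸ dvd_mul_right 3 S.m)
  have h3int : ∀ z : ℤ, (3 : ℤ) ∣ z → (z : integralClosure ℤ ℂ) ∈ 𝔪 := by
    rintro z ⟨y, rfl⟩
    push_cast
    exact 𝔪.mul_mem_right _ h3
  rcases Nat.even_or_odd e with heven | hodd
  · refine ⟨W.M, g, 𝔪, W.M_pos, W.cube_free, hg, hmax, h3, fun ℓ hℓ hℓm hℓM A hA σ hσ => ?_⟩
    obtain ⟨a, ha, hm⟩ := he ℓ hℓ (hℓ3 ℓ hℓ hℓm) hℓM A hA σ hσ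
    refine ⟨a, ha, ?_⟩
    set x : integralClosure ℤ ℂ := (((Matrix.trace ((S.ρ σ : GL (Fin 2) (ZMod 3)) :
      Matrix (Fin 2) (Fin 2) (ZMod 3))).val : ℕ) : integralClosure ℤ ℂ)
    have hpow : ((ℓ : integralClosure ℤ ℂ)) ^ e - 1 ∈ 𝔪 := by
      obtain ⟨j, rfl⟩ := heven
      have h1 : (3 : ℤ) ∣ (ℓ : ℤ) ^ 2 - 1 := by
        have h3l : ¬ 3 ∣ ℓ := fun h => hℓ3 ℓ hℓ hℓm
          ((Nat.prime_dvd_prime_iff_eq Nat.prime_three hℓ).mp h).symm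
        obtain ⟨y, hy⟩ : ∃ y : ℤ, (ℓ : ℤ) = 3 * y + 1 ∨ (ℓ : ℤ) = 3 * y + 2 :=
          ⟨(ℓ : ℤ) / 3, by omega⟩
        rcases hy with hy | hy
        · exact ⟨3 * y ^ 2 + 2 * y, by rw [hy]; ring⟩
        · exact ⟨3 * y ^ 2 + 4 * y + 1, by rw [hy]; ring⟩
      have h2 : (3 : ℤ) ∣ (ℓ : ℤ) ^ (j + j) - 1 := by
        rw [← two_mul, pow_mul]
        exact dvd_trans h1 (by simpa using sub_dvd_pow_sub_pow ((ℓ : ℤ) ^ 2) 1 j)
      simpa using h3int _ h2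
    have := add_mem hm (𝔪.mul_mem_right x hpow)
    convert this using 1
    ring
  · refine ⟨3 * W.M, twistForm g W.three_dvd, 𝔪, Nat.mul_pos three_pos W.M_pos,
      fun q hq hq3 hd => W.cube_free q hq hq3 ?_, twistForm_isNormalizedEigenform hg W.three_dvd,
      hmax, h3, fun ℓ hℓ hℓm hℓM A hA σ hσ => ?_⟩
    · exact (Nat.Coprime.pow_left 3 ((Nat.coprime_primes hq Nat.prime_three).mpr hq3)).dvd_of_dvd_mul_left hd
    obtain ⟨a, ha, hm⟩ := he ℓ hℓ (hℓ3 ℓ hℓ hℓm) (fun h => hℓM (h.mul_left 3)) A hA σ hσ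
    refine ⟨(chiThree ℓ : integralClosure ℤ ℂ) * a, by
      rw [qCoeff_twistForm]; push_cast; rw [ha], ?_⟩
    set x : integralClosure ℤ ℂ := (((Matrix.trace ((S.ρ σ : GL (Fin 2) (ZMod 3)) :
      Matrix (Fin 2) (Fin 2) (ZMod 3))).val : ℕ) : integralClosure ℤ ℂ)
    have hpow : (chiThree ℓ : integralClosure ℤ ℂ) * (ℓ : integralClosure ℤ ℂ) ^ e - 1 ∈ 𝔪 := by
      obtain ⟨j, rfl⟩ := hodd
      have h3l : ¬ 3 ∣ ℓ := fun h => hℓ3 ℓ hℓ hℓm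
        ((Nat.prime_dvd_prime_iff_eq Nat.prime_three hℓ).mp h).symm
      have h1 : (3 : ℤ) ∣ (ℓ : ℤ) ^ 2 - 1 := by
        obtain ⟨y, hy⟩ : ∃ y : ℤ, (ℓ : ℤ) = 3 * y + 1 ∨ (ℓ : ℤ) = 3 * y + 2 :=
          ⟨(ℓ : ℤ) / 3, by omega⟩
        rcases hy with hy | hy
        · exact ⟨3 * y ^ 2 + 2 * y, by rw [hy]; ring⟩
        · exact ⟨3 * y ^ 2 + 4 * y + 1, by rw [hy]; ring⟩
      obtain ⟨y, hy⟩ := chiThree_sub_natCast_dvd ℓ
      have h2 : (3 : ℤ) ∣ (ℓ : ℤ) ^ (2 * (j + 1)) - 1 := by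
        rw [pow_mul]
        exact dvd_trans h1 (by simpa using sub_dvd_pow_sub_pow ((ℓ : ℤ) ^ 2) 1 (j + 1))
      have h4 : (3 : ℤ) ∣ chiThree ℓ * (ℓ : ℤ) ^ (2 * j + 1) - 1 := by
        obtain ⟨z, hz⟩ := h2
        exact ⟨y * (ℓ : ℤ) ^ (2 * j + 1) + z, by
          linear_combination (ℓ : ℤ) ^ (2 * j + 1) * hy + hz⟩
      simpa using h3int _ h4
    have := add_mem (𝔪.mul_mem_left (chiThree ℓ : integralClosure ℤ ℂ) hm)
      (𝔪.mul_mem_right x hpow)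
    convert this using 1
    ring

end FermatAgent.LT
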