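import Fermat.Agent.LT.Galois.HexTheta
import Fermat.Agent.LT.Lift.Main
import Fermat.Agent.ModCurve.Forms.Basic
import Fermat.Prelude.Thm_CongruenceSubgroup_one_mem_strictPeriods_Gamma0

set_option autoImplicit false

/-!
# The weight two form `f θ` attached to a weight one form of character `χ₋₃`
-/

noncomputable section

open UpperHalfPlane CongruenceSubgroup ModularFormClass Filter
open scoped Real Manifold MatrixGroups ModularForm Topology

namespace FermatAgent.LT

variable {S : Setup} (W : WeightOneSource S)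

theorem chiNegThree_emod {M : ℕ} (hM : 3 ∣ M) (hM0 : 0 < M) (d : ℤ) :
    EisensteinWeightOne.chiNegThree ((d % M).toNat) = chiThree d := by
  have h1 : 0 ≤ d % (M : ℤ) := Int.emod_nonneg _ (by omega)
  have h2 : d % (M : ℤ) % 3 = d % 3 :=
    Int.emod_emod_of_dvd _ (by exact_mod_cast hM)
  unfold EisensteinWeightOne.chiNegThree chiThree
  split_ifs <;> omega

namespace WeightOneSource

theorem mul_hexTheta_isCF :
    ModCurve.Forms.IsCF (Gamma0 W.M) 2 (⇑W.f * hexTheta) := by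
  have hsub : ∀ γ : SL(2, ℤ), γ ∈ Gamma0 W.M → γ ∈ Gamma0 3 := fun γ hγ => by
    rw [Gamma0_mem, ZMod.intCast_zmod_eq_zero_iff_dvd] at hγ ⊢
    exact dvd_trans (by exact_mod_cast W.three_dvd) hγ
  have hinv : ∀ γ ∈ Gamma0 W.M, (⇑W.f * hexTheta) ∣[(2 : ℤ)] γ = ⇑W.f * hexTheta := by
    intro γ hγ
    rw [show (2 : ℤ) = 1 + 1 from rfl, ModularForm.mul_slash_SL2, W.character γ hγ,
      hexTheta_slash_Gamma0 (hsub γ hγ), chiNegThree_emod W.three_dvd W.M_pos, smul_mul_smul_comm,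
      ← Int.cast_mul, ← chiThree_mul]
    have h3 : (3 : ℤ) ∣ γ 1 0 :=
      (ZMod.intCast_zmod_eq_zero_iff_dvd _ 3).mp (Gamma0_mem.mp (hsub γ hγ))
    have hdet : γ 0 0 * γ 1 1 - γ 0 1 * γ 1 0 = 1 := by
      rw [← Matrix.det_fin_two]; exact γ.2
    have hd : ¬ (3 : ℤ) ∣ γ 1 1 := fun h => by
      have : (3 : ℤ) ∣ 1 := hdet ▸ dvd_sub (h.mul_left _) (h3.mul_left _)
      norm_num at this
    have : chiThree (γ 1 1 * γ 1 1) = 1 := by
      rw [chiThree_mul]
      unfold chiThree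
      rcases (by omega : γ 1 1 % 3 = 1 ∨ γ 1 1 % 3 = 2) with h | h <;> simp [h]
    simp [this]
  have hzero : ∀ γ : SL(2, ℤ), IsZeroAtImInfty ((⇑W.f * hexTheta) ∣[(2 : ℤ)] γ) := by
    intro γ
    have : NeZero W.M := ⟨W.M_pos.ne'⟩
    rw [show (2 : ℤ) = 1 + 1 from rfl, ModularForm.mul_slash_SL2]
    have hf : IsZeroAtImInfty (⇑W.f ∣[(1 : ℤ)] γ) := (ModCurve.Forms.isCF_coe W.f).zero γ
    have := ((Asymptotics.isLittleO_one_iff ℝ).mpr hf).mul_isBigO
      (isBoundedAtImInfty_hexTheta_slash γ)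
    simp only [Pi.one_apply, mul_one] at this
    exact (Asymptotics.isLittleO_one_iff ℝ).mp this
  exact ⟨⟨W.f.holo'.mul mdifferentiable_hexTheta, hinv, fun γ => (hzero γ).isBoundedAtImInfty⟩,
    hzero⟩

/-- The product of the weight one form with the hexagonal theta series. -/
def weightTwoForm : CuspForm (Gamma0 W.M) 2 :=
  have : NeZero W.M := ⟨W.M_pos.ne'⟩
  W.mul_hexTheta_isCF.toCuspForm

theorem coe_weightTwoForm : ⇑W.weightTwoForm = ⇑W.f * hexTheta := rfl

theorem qExpansion_weightTwoForm :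
    qExpansion 1 ⇑W.weightTwoForm =
      qExpansion 1 ⇑W.f * hexSeries.map (Int.castRingHom ℂ) := by
  have : NeZero W.M := ⟨W.M_pos.ne'⟩
  rw [coe_weightTwoForm, qExpansion_mul
    (ModularFormClass.analyticAt_cuspFunction_zero W.f one_pos
      (by simp [CongruenceSubgroup.strictPeriods_Gamma1]))
    analyticAt_cuspFunction_hexTheta, qExpansion_hexTheta]

end WeightOneSource

end FermatAgent.LT
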